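import Fermat.Agent.S43.Exact.Mat

/-!
# S43 / LOCQ, abstract half (language of `Exact.gma_main` and `Tan.master_ker`)

`W ≃ L²` equivariantly for `ρ : G →* M₂(A)`, `L` faithful.  For `σ` (a generator of the image of the inertia
group at `q ∥ level`) with `(σ - 1)² = 0` on `W` and `det ρ(σ) = 1`:
`N = ρ(σ) - 1 = [[a, b], [c, -a]]`, `a² + b c = 0`; and if every `σ`-fixed vector of `W` is an eigenvector
of `g` with eigenvalue `e`, then `ρ(g) - e` kills `L[a, b, c]` entrywise (kernel form of (GI2)).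
-/

set_option autoImplicit false

namespace Fermat.Agent.S43.LocA.QAlg

open Fermat.Agent.S43.Exact

section Mat

variable {A : Type*} [CommRing A]

/-- `N² = 0`, `det (1 + N) = 1`  ⟹  `tr N = 0`. -/
theorem trace_zero_of_sq_zero (N : Matrix (Fin 2) (Fin 2) A) (hN : N * N = 0)
    (hdet : (1 + N).det = 1) : N 1 1 = - N 0 0 := by
  have h00 : N 0 0 * N 0 0 + N 0 1 * N 1 0 = 0 := by
    have := congrFun (congrFun hN 0) 0
    simpa [Matrix.mul_apply, Fin.sum_univ_two] using this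
  have h01 : N 0 0 * N 0 1 + N 0 1 * N 1 1 = 0 := by
    have := congrFun (congrFun hN 0) 1
    simpa [Matrix.mul_apply, Fin.sum_univ_two] using this
  have hd : (1 + N 0 0) * (1 + N 1 1) - N 0 1 * N 1 0 = 1 := by
    have := hdet
    rw [Matrix.det_fin_two] at this
    simpa using this
  have hT : N 0 0 + N 1 1 = 0 := by
    linear_combination (1 - N 0 0) * (h00 + hd) - N 1 0 * h01 + (N 0 0 + N 1 1) * h00
  linear_combination hT

theorem sq_add_mul_eq_zero (N : Matrix (Fin 2) (Fin 2) A) (hN : N * N = 0) :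
    N 0 0 ^ 2 + N 0 1 * N 1 0 = 0 := by
  have := congrFun (congrFun hN 0) 0
  simp only [Matrix.mul_apply, Fin.sum_univ_two, Matrix.zero_apply] at this
  linear_combination this

end Mat

variable {A W L G : Type*} [CommRing A] [AddCommGroup W] [Module A W] [AddCommGroup L] [Module A L]
  [Group G] (r : G →* Module.End A W) (ρ : G →* Matrix (Fin 2) (Fin 2) A)
  (Φ : W ≃ₗ[A] (Fin 2 → L)) (hΦ : ∀ g w, Φ (r g w) = matAct (ρ g) (Φ w))

include hΦ in
/-- `(σ - 1)(τ - 1) = 0` on `W` ⟹ `(ρ σ - 1)(ρ τ - 1) = 0`. -/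
theorem mul_eq_zero_of_unip (hL : ∀ a : A, (∀ l : L, a • l = 0) → a = 0) (σ τ : G)
    (h : ∀ w, r σ (r τ w) - r σ w - r τ w + w = 0) : (ρ σ - 1) * (ρ τ - 1) = 0 := by
  apply eq_zero_of_matAct (L := L) hL
  intro v
  obtain ⟨w, rfl⟩ := Φ.surjective v
  have h1 := congrArg Φ (h w)
  rw [map_add, map_sub, map_sub, hΦ, hΦ, hΦ, map_zero] at h1
  rw [matAct_mul, matAct_sub, matAct_sub, matAct_one, map_sub, matAct_one]
  rw [← h1]
  abel

/-- the vector `(l, 0)`. -/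
def vec0 (l : L) : Fin 2 → L := ![l, 0]
/-- the vector `(0, l)`. -/
def vec1 (l : L) : Fin 2 → L := ![0, l]

include hΦ in
/-- **Kernel form of (GI2).**  -/
theorem kernel_form (σ g : G) (e : A) (h11 : (ρ σ - 1) 1 1 = - (ρ σ - 1) 0 0)
    (hfix : ∀ w, r σ w = w → r g w = e • w) (l : L)
    (ha : (ρ σ - 1) 0 0 • l = 0) (hb : (ρ σ - 1) 0 1 • l = 0) (hc : (ρ σ - 1) 1 0 • l = 0) :
    ρ g 0 1 • l = 0 ∧ ρ g 1 0 • l = 0 ∧ (ρ g 0 0 - e) • l = 0 ∧ (ρ g 1 1 - e) • l = 0 ∧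
      (ρ g 0 0 - ρ g 1 1) • l = 0 := by
  have hd : (ρ σ - 1) 1 1 • l = 0 := by rw [h11, neg_smul, ha, neg_zero]
  have hs0 : matAct (ρ σ) (vec0 l) = vec0 l := by
    have : matAct (ρ σ - 1) (vec0 l) = 0 := by
      funext i
      rw [matAct_apply]
      fin_cases i
      · simpa [vec0] using ha
      · simpa [vec0] using hc
    rw [matAct_sub, matAct_one, sub_eq_zero] at this
    exact this
  have hs1 : matAct (ρ σ) (vec1 l) = vec1 l := by
    have : matAct (ρ σ - 1) (vec1 l) = 0 := by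
      funext i
      rw [matAct_apply]
      fin_cases i
      · simpa [vec1] using hb
      · simpa [vec1] using hd
    rw [matAct_sub, matAct_one, sub_eq_zero] at this
    exact this
  have key : ∀ v : Fin 2 → L, matAct (ρ σ) v = v → matAct (ρ g) v = e • v := by
    intro v hv
    have h1 : r σ (Φ.symm v) = Φ.symm v := by
      apply Φ.injective
      rw [hΦ, LinearEquiv.apply_symm_apply, hv]
    have h2 := congrArg Φ (hfix _ h1)
    rwa [hΦ, map_smul, LinearEquiv.apply_symm_apply] at h2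
  have k0 := key _ hs0
  have k1 := key _ hs1
  have k00 := congrFun k0 0
  have k01 := congrFun k0 1
  have k10 := congrFun k1 0
  have k11 := congrFun k1 1
  rw [matAct_apply] at k00 k01 k10 k11
  simp only [vec0, vec1, Matrix.cons_val_zero, Matrix.cons_val_one, smul_zero, add_zero, zero_add,
    Pi.smul_apply] at k00 k01 k10 k11
  refine ⟨k10, k01, ?_, ?_, ?_⟩
  · rw [sub_smul, k00, sub_self]
  · rw [sub_smul, k11, sub_self]
  · rw [sub_smul, k00, k11, sub_self]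

include hΦ in
/-- **LOCQ, abstract form.** -/
theorem locq_abs (hL : ∀ a : A, (∀ l : L, a • l = 0) → a = 0) (σ : G)
    (hunip : ∀ w, r σ (r σ w) - r σ w - r σ w + w = 0) (hdet : (ρ σ).det = 1) :
    (ρ σ - 1) 1 1 = - (ρ σ - 1) 0 0 ∧
    (ρ σ - 1) 0 0 ^ 2 + (ρ σ - 1) 0 1 * (ρ σ - 1) 1 0 = 0 ∧
    ∀ (g : G) (e : A), (∀ w, r σ w = w → r g w = e • w) → ∀ l : L,
      (ρ σ - 1) 0 0 • l = 0 → (ρ σ - 1) 0 1 • l = 0 → (ρ σ - 1) 1 0 • l = 0 →
      ρ g 0 1 • l = 0 ∧ ρ g 1 0 • l = 0 ∧ (ρ g 0 0 - e) • l = 0 ∧ (ρ g 1 1 - e) • l = 0 ∧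
        (ρ g 0 0 - ρ g 1 1) • l = 0 := by
  have hN := mul_eq_zero_of_unip r ρ Φ hΦ hL σ σ hunip
  have h11 := trace_zero_of_sq_zero (ρ σ - 1) hN (by rw [add_sub_cancel]; exact hdet)
  exact ⟨h11, sq_add_mul_eq_zero _ hN, fun g e hfix l => kernel_form r ρ Φ hΦ σ g e h11 hfix l⟩

end Fermat.Agent.S43.LocA.QAlg
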