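/-
S43 (route TWX0), block MAZ, concrete part (Mazur's principle for the Frey representation).

Level `M * q`, `4 ∣ M`, `q ∤ M` an odd prime `≠ p`.  If the eigensystem of `E[p]` occurs at level `M q` and not at level `M`
then (GA, kernel form) every Frobenius element at `q` acts on `E[p]` by ONE scalar `e = ± 1`, and `q ≡ 1 (mod p)`.
Hence `q` is a "scalar prime": `GWS.ScalarAt (S56.T.matRep (rho P)) q`.

Proof: a `G_ℚ`-copy of `E[p]` sits in a `w_q`-eigenspace of the eigenspace (`MR.Glue.blrCopy`), it is fixed by inertia (S05), so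
`φ = - q w_q = - q ε` on it; `det φ = q` (`BigImg.det_Ep`) gives `q² = q` in `𝔽_p`.
-/
import Fermat.Agent.S43.GA.Contract
import Fermat.Agent.S43.BigImg.Scalar
import Fermat.Agent.S43.BigImg.Det
import Fermat.Agent.MR.Glue.Frob
import Fermat.Agent.MR.Glue.Front
import Fermat.Agent.S05

set_option autoImplicit false

noncomputable section

namespace Fermat.Agent.S43.LocA

open AlgebraicCurve ModularCurve Fermat.Agent.S24 Fermat.Agent.GAL Fermat.Agent.DR
open Fermat.Agent.MR.Glue Fermat.Agent.MR.E Fermat.Agent.S43.BigImg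
open WeierstrassCurve WeierstrassCurve.Affine WeierstrassCurve.Affine.Point

/-- the eigensystem of `E[p]` is not Eisenstein. -/
theorem nonEis_frey (P : FreyPackage)
    (hirr : GaloisRepIsIrreducible (K := AlgebraicClosure ℚ) ℚ P.freyCurve P.p)
    (W : WeierstrassCurve ℤ) (hW : W.IsIntegralModelOf P.freyCurve) (n : ℕ) (hn : n ≠ 0)
    (S : Finset ℕ) : GA.NonEis n P.p S W.apOfModel := by
  obtain ⟨ℓ, h1, h2, h3⟩ := blrNonEis P hirr W hW (S ∪ n.primeFactors)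
  rw [Finset.mem_union, not_or] at h2
  exact ⟨ℓ, h1, fun h => h2.2 (Nat.mem_primeFactors.2 ⟨h1, h, hn⟩), h2.1, h3⟩

/-- **Step 1**: every Frobenius element at `q` acts on `E[p]` by `- q ε`. -/
theorem frob_eq_of_ga (hGA : GA.FrobStatement) (P : FreyPackage)
    (hirr : GaloisRepIsIrreducible (K := AlgebraicClosure ℚ) ℚ P.freyCurve P.p)
    (M q : ℕ) [NeZero M] [NeZero q] (hq : q.Prime) (hqM : ¬ q ∣ M) (h4 : 4 ∣ M)
    (hq2 : q ≠ 2) (hqp : q ≠ P.p)
    (W : WeierstrassCurve ℤ) (hW : W.IsIntegralModelOf P.freyCurve) (S : Finset ℕ) (hpS : P.p ∈ S)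
    (hocc : eigenKV (M * q) P.p S W.apOfModel ≠ ⊥)
    (hH : eigenKV M P.p (insert q S) W.apOfModel = ⊥) :
    ∃ ε : ℤ, (ε = 1 ∨ ε = -1) ∧
      ∀ A : ValuationSubring (AlgebraicClosure ℚ), A.LiesOverPrime q →
        ∀ φ : GQ', A.IsFrobeniusAt φ q → ∀ x : Ep P, φ • x = (-((q : ℤ) * ε)) • x := by
  have : NeZero P.p := ⟨P.pp.ne_zero⟩
  have hdeg := Hecke.kvDegen (M := M) (q := q) hq hqM
  obtain ⟨ε, hε, hU⟩ := exists_eigenW_ne_bot hq hqM S W.apOfModel hocc
  obtain ⟨f, hinj, hgal, hfU⟩ := blrCopy P hirr (M * q) W hW S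
    (eigenW M q P.p S W.apOfModel ε) hU (fun x hx => hx.1) (by
      rintro σ x ⟨hx, hx'⟩
      exact ⟨eigenKV_galois _ _ σ x hx, by rw [hdeg.w_galois, hx', smul_comm]⟩)
  refine ⟨ε, hε, fun A hA φ hφ x => ?_⟩
  have hne := nonEis_frey P hirr W hW (M * q) (NeZero.ne _) S
  have hI : ∀ τ ∈ A.inertiaSubgroupIn ℚ, τ • f x = f x := by
    intro τ hτ
    rw [← hgal]
    exact congrArg f (Fermat.Agent.S05.result P hq hq2 hqp A hA τ hτ x)
  have key := hGA A M q hq hqM hA h4 P.p P.pp P.hp5 hqp.symm S hpS W.apOfModel hne hH (f x)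
    (GA.eigenKV_subset_gEigenKV _ _ _ _ (hfU x).1) hI φ hφ
  rw [← Hecke.interface_wKV_eq hq hqM, (hfU x).2, ← hgal] at key
  apply hinj
  rw [map_zsmul, neg_smul, mul_smul, natCast_zsmul]
  exact eq_neg_of_add_eq_zero_left key

/-- a Frobenius element at `q ≠ p` acts on `μ_p` by `ζ ↦ ζ ^ q`. -/
theorem cyc_frob (P : FreyPackage) {q : ℕ} (hq : q.Prime) (hqp : q ≠ P.p)
    {A : ValuationSubring (AlgebraicClosure ℚ)} (hA : A.LiesOverPrime q) {φ : GQ'}
    (hφ : A.IsFrobeniusAt φ q) : Cyc P φ q := by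
  intro ζ hζ
  have h := S58.frobenius_pow_rootOfUnity hq hA hφ (m := P.p)
    (fun h => hqp ((Nat.prime_dvd_prime_iff_eq hq P.pp).1 h)) 1 hζ
  simpa using h

/-- **Mazur's principle** for the Frey representation (in the hypothetical world). -/
theorem maz_conc (hGA : GA.FrobStatement) (P : FreyPackage)
    (hirr : GaloisRepIsIrreducible (K := AlgebraicClosure ℚ) ℚ P.freyCurve P.p)
    (M q : ℕ) [NeZero M] [NeZero q] (hq : q.Prime) (hqM : ¬ q ∣ M) (h4 : 4 ∣ M)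
    (hq2 : q ≠ 2) (hqp : q ≠ P.p)
    (W : WeierstrassCurve ℤ) (hW : W.IsIntegralModelOf P.freyCurve) (S : Finset ℕ) (hpS : P.p ∈ S)
    (hocc : eigenKV (M * q) P.p S W.apOfModel ≠ ⊥)
    (hH : eigenKV M P.p (insert q S) W.apOfModel = ⊥) :
    P.p ∣ q - 1 ∧ ∃ e : ZMod P.p, (e = 1 ∨ e = -1) ∧
      ∀ A : ValuationSubring (AlgebraicClosure ℚ), A.LiesOverPrime q →
        ∀ φ : GQ', A.IsFrobeniusAt φ q → ∀ x : Ep P, φ • x = e • x := by
  obtain ⟨ε, hε, h⟩ := frob_eq_of_ga hGA P hirr M q hq hqM h4 hq2 hqp W hW S hpS hocc hH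
  -- `q = 1` in `𝔽_p`
  obtain ⟨A, φ, hA, hφ⟩ := Fermat.Agent.Lib.Frobenius.exists_frobenius hq
  have hε2 : ((ε : ℤ) : ZMod P.p) ^ 2 = 1 := by
    rcases hε with rfl | rfl <;> simp
  have hq0 : (q : ZMod P.p) ≠ 0 := by
    intro h0
    rw [ZMod.natCast_eq_zero_iff] at h0
    exact hqp ((Nat.prime_dvd_prime_iff_eq P.pp hq).1 h0).symm
  have hsc : (rhoFp P).ρ φ =
      ((-((q : ℤ) * ε) : ℤ) : ZMod P.p) • (1 : Module.End (ZMod P.p) (rhoFp P).V) := by
    refine LinearMap.ext fun x => ?_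
    have := h A hA φ hφ x
    rw [LinearMap.smul_apply, Module.End.one_apply, Int.cast_smul_eq_zsmul]
    exact this
  have hdet := det_Ep P hirr φ q (cyc_frob P hq hqp hA hφ)
  rw [hsc, LinearMap.det_smul, (rhoFp P).finrank_eq, map_one, mul_one] at hdet
  have hq1 : (q : ZMod P.p) = 1 := by
    have h1 : (q : ZMod P.p) * (q : ZMod P.p) = (q : ZMod P.p) * 1 := by
      rw [mul_one]
      conv_rhs => rw [← hdet]
      push_cast
      linear_combination (-(q : ZMod P.p) ^ 2) * hε2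
    exact mul_left_cancel₀ hq0 h1
  refine ⟨?_, (-(ε : ℤ) : ℤ), ?_, fun A' hA' φ' hφ' x => ?_⟩
  · have h2 : ((q - 1 : ℕ) : ZMod P.p) = 0 := by
      rw [Nat.cast_sub hq.one_lt.le, hq1, Nat.cast_one, sub_self]
    exact (ZMod.natCast_eq_zero_iff _ _).1 h2
  · rcases hε with rfl | rfl
    · right; simp
    · left; simp
  · rw [h A' hA' φ' hφ' x, ← Int.cast_smul_eq_zsmul (ZMod P.p)]
    congr 1
    push_cast
    rw [hq1, one_mul]

/-- **Every prime of the level is a scalar prime** (in the hypothetical world). -/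
theorem scalarAt_of_ga (hGA : GA.FrobStatement) (P : FreyPackage)
    (hirr : GaloisRepIsIrreducible (K := AlgebraicClosure ℚ) ℚ P.freyCurve P.p)
    (M q : ℕ) [NeZero M] [NeZero q] (hq : q.Prime) (hqM : ¬ q ∣ M) (h4 : 4 ∣ M)
    (hq2 : q ≠ 2) (hqp : q ≠ P.p)
    (W : WeierstrassCurve ℤ) (hW : W.IsIntegralModelOf P.freyCurve) (S : Finset ℕ) (hpS : P.p ∈ S)
    (hocc : eigenKV (M * q) P.p S W.apOfModel ≠ ⊥)
    (hH : eigenKV M P.p (insert q S) W.apOfModel = ⊥) :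
    GWS.ScalarAt (S56.T.matRep (rho P)) q := by
  obtain ⟨-, e, -, h⟩ := maz_conc hGA P hirr M q hq hqM h4 hq2 hqp W hW S hpS hocc hH
  obtain ⟨A, φ, hA, hφ⟩ := Fermat.Agent.Lib.Frobenius.exists_frobenius hq
  exact scalarAt_of_frob P hq (Fermat.Agent.S05.result P hq hq2 hqp) A hA φ hφ e (h A hA φ hφ)

end Fermat.Agent.S43.LocA

end
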