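import Mathlib

/-!
# S43 / LocA / BaseChange : passing from `X` (an `F`-space) to `k ⊗[F] X`

`F` a field, `k` an extension field (only `k` free over `F` is used), `X`, `Y` `F`-vector spaces.
`bc f = f.baseChange k`.  Everything is read off the components with respect to an `F`-basis of `k`:

* `cmp : k ⊗[F] X ≃ₗ[F] (ι →₀ X)`, `cmp_bc : cmp (bc f w) j = f (cmp w j)`;
* `bc_eq_zero_iff`        : `bc f w = 0 ↔ ∀ j, f (cmp w j) = 0`;
* `ker_imp`               : `(∀ x, (∀ i, f i x = 0) → h x = 0) → (∀ w, (∀ i, bc (f i) w = 0) → bc h w = 0)`;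
* `fix_imp`               : the same for fixed vectors and eigenvectors (`g x = e • x`, `e ∈ F`);
* `one_tmul_injective`, `bc_injective`, `bc_ne_zero` : `f ≠ 0 → bc f ≠ 0`;
* `bcHom : Module.End F X →ₐ[F] Module.End k (k ⊗[F] X)`, `bcRep` (base change of a group action);
* `finrank_kerFam`        : `dim_k ⋂ ker (bc (f i)) = dim_F ⋂ ker (f i)`;
* `card_kerFam`           : `#⋂ ker (bc (f i)) = (#⋂ ker (f i)) ^ [k : F]` (finite case).
Pure Mathlib.
-/

set_option autoImplicit false

namespace Fermat.Agent.S43.LocA.BaseChange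

open TensorProduct Module

variable {F : Type*} (k : Type*) {X Y : Type*} [Field F] [Field k] [Algebra F k]
  [AddCommGroup X] [Module F X] [AddCommGroup Y] [Module F Y]

/-- index set of the chosen `F`-basis of `k`. -/
abbrev Idx (F k : Type*) [Field F] [Field k] [Algebra F k] : Type _ := Basis.ofVectorSpaceIndex F k

open Classical in
/-- the components of an element of `k ⊗ X`. -/
noncomputable def cmp : k ⊗[F] X ≃ₗ[F] (Idx F k →₀ X) :=
  TensorProduct.equivFinsuppOfBasisLeft (Basis.ofVectorSpace F k)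

theorem cmp_tmul (c : k) (x : X) (j : Idx F k) :
    cmp k (c ⊗ₜ[F] x) j = (Basis.ofVectorSpace F k).repr c j • x := by
  classical
  exact TensorProduct.equivFinsuppOfBasisLeft_apply_tmul_apply _ _ _ _

/-- **base change acts componentwise.** -/
theorem cmp_bc (f : X →ₗ[F] Y) (w : k ⊗[F] X) (j : Idx F k) :
    cmp k (f.baseChange k w) j = f (cmp k w j) := by
  induction w using TensorProduct.induction_on with
  | zero => simp
  | tmul c x => rw [LinearMap.baseChange_tmul, cmp_tmul, cmp_tmul, map_smul]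
  | add a b ha hb => rw [map_add, map_add, map_add, Finsupp.add_apply, Finsupp.add_apply, ha, hb,
      map_add]

theorem eq_zero_iff (w : k ⊗[F] X) : w = 0 ↔ ∀ j, cmp k w j = 0 := by
  rw [← (cmp k (F := F) (X := X)).map_eq_zero_iff]
  exact Finsupp.ext_iff

theorem bc_eq_zero_iff (f : X →ₗ[F] Y) (w : k ⊗[F] X) :
    f.baseChange k w = 0 ↔ ∀ j, f (cmp k w j) = 0 := by
  rw [eq_zero_iff]
  simp only [cmp_bc]

/-- **kernel implications pass to `k ⊗ X`.** -/
theorem ker_imp {ι : Type*} (f : ι → X →ₗ[F] Y) {Z : Type*} [AddCommGroup Z] [Module F Z]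
    (h : X →ₗ[F] Z) (H : ∀ x, (∀ i, f i x = 0) → h x = 0) (w : k ⊗[F] X)
    (hw : ∀ i, (f i).baseChange k w = 0) : h.baseChange k w = 0 := by
  rw [bc_eq_zero_iff]
  intro j
  exact H _ fun i => (bc_eq_zero_iff k (f i) w).1 (hw i) j

/-- fixed vectors of a family ⟹ eigenvector, over `k`. -/
theorem fix_imp {ι : Type*} (s : ι → X →ₗ[F] X) (g : X →ₗ[F] X) (e : F)
    (H : ∀ x, (∀ i, s i x = x) → g x = e • x) (w : k ⊗[F] X)
    (hw : ∀ i, (s i).baseChange k w = w) : g.baseChange k w = algebraMap F k e • w := by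
  have h1 := ker_imp k (fun i => s i - LinearMap.id) (g - e • LinearMap.id)
    (fun x hx => by
      have : g x = e • x := H x fun i => sub_eq_zero.1 (by simpa using hx i)
      simp [this]) w
    (fun i => by
      rw [LinearMap.baseChange_sub, LinearMap.baseChange_id, LinearMap.sub_apply, hw i]
      simp)
  rw [LinearMap.baseChange_sub, LinearMap.baseChange_smul, LinearMap.baseChange_id,
    LinearMap.sub_apply, sub_eq_zero] at h1
  rw [h1, LinearMap.smul_apply, LinearMap.id_apply, algebraMap_smul]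

theorem one_tmul_injective : Function.Injective fun x : X => (1 : k) ⊗ₜ[F] x := by
  intro x y hxy
  have h0 : (1 : k) ⊗ₜ[F] (x - y) = 0 := by
    rw [TensorProduct.tmul_sub]; exact sub_eq_zero.2 hxy
  have h1 := (eq_zero_iff k _).1 h0
  have h2 : (Basis.ofVectorSpace F k).repr (1 : k) ≠ 0 := by
    rw [Ne, LinearEquiv.map_eq_zero_iff]; exact one_ne_zero
  obtain ⟨j, hj⟩ := Finsupp.ne_iff.1 h2
  have h3 := h1 j
  rw [cmp_tmul] at h3
  exact sub_eq_zero.1 ((smul_eq_zero.1 h3).resolve_left hj)

theorem bc_injective : Function.Injective fun f : X →ₗ[F] Y => f.baseChange k := by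
  intro f g hfg
  ext x
  apply one_tmul_injective (F := F) k
  have := congrArg (fun u : k ⊗[F] X →ₗ[k] k ⊗[F] Y => u ((1 : k) ⊗ₜ[F] x)) hfg
  simpa using this

theorem bc_ne_zero {f : X →ₗ[F] Y} (hf : f ≠ 0) : f.baseChange k ≠ 0 := by
  intro h
  apply hf
  apply bc_injective k
  simpa using h

/-- base change as a monoid homomorphism on endomorphisms. -/
noncomputable def bcHom : Module.End F X →* Module.End k (k ⊗[F] X) where
  toFun f := f.baseChange k
  map_one' := LinearMap.baseChange_one _ _
  map_mul' f g := LinearMap.baseChange_mul f g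

theorem bcHom_apply (f : Module.End F X) : bcHom k f = f.baseChange k := rfl

/-- base change of a group action. -/
noncomputable def bcRep {G : Type*} [Monoid G] (r : G →* Module.End F X) :
    G →* Module.End k (k ⊗[F] X) := (bcHom k).comp r

theorem bcRep_apply {G : Type*} [Monoid G] (r : G →* Module.End F X) (g : G) :
    bcRep k r g = (r g).baseChange k := rfl

theorem bcRep_tmul {G : Type*} [Monoid G] (r : G →* Module.End F X) (g : G) (c : k) (x : X) :
    bcRep k r g (c ⊗ₜ[F] x) = c ⊗ₜ[F] r g x := rfl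

/-- nilpotency passes to `k ⊗ X`. -/
theorem bc_pow_eq_zero {f : Module.End F X} {n : ℕ} (h : f ^ n = 0) :
    (f.baseChange k) ^ n = 0 := by
  rw [← LinearMap.baseChange_pow, h, LinearMap.baseChange_zero]

/-- pointwise nilpotency passes to `k ⊗ X`. -/
theorem bc_pow_apply_eq_zero {f : Module.End F X} (h : ∀ x, ∃ n, (f ^ n) x = 0) (w : k ⊗[F] X) :
    ∃ n, ((f.baseChange k) ^ n) w = 0 := by
  induction w using TensorProduct.induction_on with
  | zero => exact ⟨0, by simp⟩
  | tmul c x =>
    obtain ⟨n, hn⟩ := h x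
    exact ⟨n, by rw [← LinearMap.baseChange_pow, LinearMap.baseChange_tmul, hn, tmul_zero]⟩
  | add a b ha hb =>
    obtain ⟨n, hn⟩ := ha
    obtain ⟨m, hm⟩ := hb
    refine ⟨n + m, ?_⟩
    rw [map_add, pow_add, Module.End.mul_apply, Module.End.mul_apply, hm, map_zero, add_zero,
      ← Module.End.mul_apply, ← pow_add, add_comm, pow_add, Module.End.mul_apply, hn, map_zero]

section Ker

variable {ι : Type*} (f : ι → X →ₗ[F] Y)

/-- `⋂ ker f i`. -/
def kerFam : Submodule F X := ⨅ i, LinearMap.ker (f i)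

/-- `⋂ ker (k ⊗ f i)`. -/
def kerFamK : Submodule k (k ⊗[F] X) := ⨅ i, LinearMap.ker ((f i).baseChange k)

theorem mem_kerFam {x : X} : x ∈ kerFam f ↔ ∀ i, f i x = 0 := by
  simp [kerFam, Submodule.mem_iInf]

theorem mem_kerFamK {w : k ⊗[F] X} : w ∈ kerFamK k f ↔ ∀ i, (f i).baseChange k w = 0 := by
  simp [kerFamK, Submodule.mem_iInf]

theorem mem_kerFamK_iff {w : k ⊗[F] X} : w ∈ kerFamK k f ↔ ∀ j, cmp k w j ∈ kerFam f := by
  rw [mem_kerFamK]
  simp only [bc_eq_zero_iff, mem_kerFam]
  exact forall_comm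

theorem subtype_bc_injective (K : Submodule F X) :
    Function.Injective (K.subtype.baseChange k) := by
  rw [injective_iff_map_eq_zero]
  intro w hw
  rw [bc_eq_zero_iff] at hw
  rw [eq_zero_iff]
  intro j
  exact Subtype.ext (hw j)

theorem kerFamK_eq_range : kerFamK k f = LinearMap.range ((kerFam f).subtype.baseChange k) := by
  classical
  apply le_antisymm
  · intro w hw
    rw [mem_kerFamK_iff] at hw
    let c' : Idx F k →₀ kerFam f :=
      Finsupp.onFinset (cmp k w).support (fun j => ⟨cmp k w j, hw j⟩) (by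
        intro j hj
        rw [Finsupp.mem_support_iff]
        intro h0
        exact hj (Subtype.ext h0))
    refine ⟨(cmp k).symm c', ?_⟩
    apply (cmp k (F := F) (X := X)).injective
    ext j
    rw [cmp_bc, LinearEquiv.apply_symm_apply]
    rfl
  · rintro _ ⟨w', rfl⟩
    rw [mem_kerFamK_iff]
    intro j
    rw [cmp_bc]
    exact (cmp k w' j).2

/-- **`dim_k ⋂ ker (k ⊗ f i) = dim_F ⋂ ker f i`.** -/
theorem finrank_kerFamK : finrank k (kerFamK k f) = finrank F (kerFam f) := by
  rw [kerFamK_eq_range,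
    LinearMap.finrank_range_of_inj (subtype_bc_injective k (kerFam f)), Module.finrank_baseChange]

/-- **`#⋂ ker (k ⊗ f i) = (#⋂ ker f i) ^ [k : F]`.** -/
theorem card_kerFamK [Module.Finite F k] [Module.Finite F X] :
    Nat.card (kerFamK k f) = Nat.card (kerFam f) ^ finrank F k := by
  have : Module.Finite k (k ⊗[F] X) := Module.Finite.base_change F k X
  rw [Module.natCard_eq_pow_finrank (K := k) (V := kerFamK k f),
    Module.natCard_eq_pow_finrank (K := F) (V := kerFam f),
    Module.natCard_eq_pow_finrank (K := F) (V := k), finrank_kerFamK, ← pow_mul, ← pow_mul,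
    mul_comm]

end Ker

section Rep

variable {G : Type*} [Monoid G] (r : G →* Module.End F X)

/-- fixed by `I` ⟹ eigenvector of `g`, over `k`. -/
theorem bcRep_fix_imp (I : Set G) (g : G) (e : F)
    (H : ∀ x, (∀ s ∈ I, r s x = x) → r g x = e • x) (w : k ⊗[F] X)
    (hw : ∀ s ∈ I, bcRep k r s w = w) : bcRep k r g w = algebraMap F k e • w :=
  fix_imp k (fun s : I => r s) (r g) e (fun x hx => H x fun s hs => hx ⟨s, hs⟩) w
    fun s => hw s s.2

/-- `(σ - 1)(τ - 1) = 0` passes to `k ⊗ X`. -/
theorem bcRep_unip (σ τ : G) (H : ∀ x, r σ (r τ x) - r σ x - r τ x + x = 0) (w : k ⊗[F] X) :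
    bcRep k r σ (bcRep k r τ w) - bcRep k r σ w - bcRep k r τ w + w = 0 := by
  induction w using TensorProduct.induction_on with
  | zero => simp
  | tmul c x =>
    simp only [bcRep_tmul]
    rw [← tmul_sub, ← tmul_sub, ← tmul_add, H, tmul_zero]
  | add a b ha hb =>
    simp only [map_add]
    calc _ = (bcRep k r σ (bcRep k r τ a) - bcRep k r σ a - bcRep k r τ a + a) +
          (bcRep k r σ (bcRep k r τ b) - bcRep k r σ b - bcRep k r τ b + b) := by abel
      _ = 0 := by rw [ha, hb, add_zero]

/-- the invariants of `I` in `k ⊗ X` have the dimension of the invariants of `I` in `X`. -/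
theorem finrank_fix (I : Set G) :
    finrank k (kerFamK k fun s : I => r s - 1) = finrank F (kerFam fun s : I => r s - 1) :=
  finrank_kerFamK k _

theorem mem_kerFam_fix {I : Set G} {x : X} :
    x ∈ kerFam (fun s : I => r s - 1) ↔ ∀ s ∈ I, r s x = x := by
  rw [mem_kerFam]
  constructor
  · intro h s hs
    have := h ⟨s, hs⟩
    rwa [LinearMap.sub_apply, Module.End.one_apply, sub_eq_zero] at this
  · intro h s
    rw [LinearMap.sub_apply, Module.End.one_apply, sub_eq_zero]
    exact h s s.2

theorem mem_kerFamK_fix {I : Set G} {w : k ⊗[F] X} :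
    w ∈ kerFamK k (fun s : I => r s - 1) ↔ ∀ s ∈ I, bcRep k r s w = w := by
  rw [mem_kerFamK]
  constructor
  · intro h s hs
    have := h ⟨s, hs⟩
    rwa [LinearMap.baseChange_sub, LinearMap.baseChange_one, LinearMap.sub_apply,
      Module.End.one_apply, sub_eq_zero] at this
  · intro h s
    rw [LinearMap.baseChange_sub, LinearMap.baseChange_one, LinearMap.sub_apply,
      Module.End.one_apply, sub_eq_zero]
    exact h s s.2

/-- a nonzero operator of `ℤ[G]`-type stays nonzero: list products. -/
theorem bc_list_prod_ne_zero (l : List (Module.End F X)) (h : l.prod ≠ 0) :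
    (l.map fun u => (u.baseChange k : Module.End k (k ⊗[F] X))).prod ≠ 0 := by
  have h1 : (l.map fun u => (u.baseChange k : Module.End k (k ⊗[F] X))).prod =
      l.prod.baseChange k := by
    have := map_list_prod (bcHom k (F := F) (X := X)) l
    rw [bcHom_apply] at this
    rw [this]
    rfl
  rw [h1]
  exact bc_ne_zero k h

end Rep

end Fermat.Agent.S43.LocA.BaseChange
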