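import Fermat.Agent.S43.Exact.Mat

/-!
# S43 / LOC / MAZ, abstract part (Mazur's principle)

`rb : G →* M₂(k)` irreducible (`rb c = diag(1,-1)`, `rb g₀` has `(0,1)` entry `≠ 0`, `rb h₀` has `(1,0)` entry `≠ 0`),
acting on `L²`, `L ≠ 0`.  `w` an involution of `L²` commuting with `G`, and `rb φ = - q w` on `L²`, `det rb φ = q ≠ 0`.
Then `q = 1` and `rb φ` is the scalar `e = ± 1`.
-/

set_option autoImplicit false

namespace Fermat.Agent.S43.LocA

open Fermat.Agent.S43.Exact

variable {k : Type*} [Field k] {G : Type*} [Group G]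

theorem aux12 (X : Matrix (Fin 2) (Fin 2) k) :
    (!![0, 4 * X 0 1; 0, 0] : Matrix (Fin 2) (Fin 2) k)
      = X - X * !![1, 0; 0, -1] + !![1, 0; 0, -1] * X - !![1, 0; 0, -1] * X * !![1, 0; 0, -1] := by
  conv_rhs => rw [Matrix.eta_fin_two X]
  simp only [Matrix.mul_fin_two, Matrix.of_sub_of, Matrix.of_add_of]
  ext i j
  fin_cases i <;> fin_cases j <;> simp <;> ring

theorem aux21 (X : Matrix (Fin 2) (Fin 2) k) :
    (!![0, 0; 4 * X 1 0, 0] : Matrix (Fin 2) (Fin 2) k)
      = X + X * !![1, 0; 0, -1] - !![1, 0; 0, -1] * X - !![1, 0; 0, -1] * X * !![1, 0; 0, -1] := by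
  conv_rhs => rw [Matrix.eta_fin_two X]
  simp only [Matrix.mul_fin_two, Matrix.of_sub_of, Matrix.of_add_of]
  ext i j
  fin_cases i <;> fin_cases j <;> simp <;> ring

/-- a matrix killing the whole `G`-orbit of a nonzero vector of `L²` is zero (Burnside by hand). -/
theorem eq_zero_of_kills_orbit (h2 : (2 : k) ≠ 0) (rb : G →* Matrix (Fin 2) (Fin 2) k) (c g0 h0 : G)
    (hc : rb c = !![1, 0; 0, -1]) (hg0 : rb g0 0 1 ≠ 0) (hh0 : rb h0 1 0 ≠ 0)
    {L : Type*} [AddCommGroup L] [Module k L] (Y : Matrix (Fin 2) (Fin 2) k) (u : Fin 2 → L)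
    (hu : u ≠ 0) (hY : ∀ g, matAct Y (matAct (rb g) u) = 0) : Y = 0 := by
  have h4 : (4 : k) ≠ 0 := by
    have : (4 : k) = 2 * 2 := by norm_num
    rw [this]; exact mul_ne_zero h2 h2
  have E11 : matAct Y (matAct (!![2, 0; 0, 0] : Matrix (Fin 2) (Fin 2) k) u) = 0 := by
    have e : (!![2, 0; 0, 0] : Matrix (Fin 2) (Fin 2) k) = rb 1 + rb c := by
      rw [map_one, hc]
      ext i j
      fin_cases i <;> fin_cases j <;> simp <;> norm_num
    rw [e, matAct_add, map_add, hY, hY, add_zero]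
  have E22 : matAct Y (matAct (!![0, 0; 0, 2] : Matrix (Fin 2) (Fin 2) k) u) = 0 := by
    have e : (!![0, 0; 0, 2] : Matrix (Fin 2) (Fin 2) k) = rb 1 - rb c := by
      rw [map_one, hc]
      ext i j
      fin_cases i <;> fin_cases j <;> simp <;> norm_num
    rw [e, matAct_sub, map_sub, hY, hY, sub_zero]
  have E12 : matAct Y (matAct (!![0, 4 * rb g0 0 1; 0, 0] : Matrix (Fin 2) (Fin 2) k) u) = 0 := by
    have e : (!![0, 4 * rb g0 0 1; 0, 0] : Matrix (Fin 2) (Fin 2) k)
        = rb g0 - rb (g0 * c) + rb (c * g0) - rb (c * g0 * c) := by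
      rw [map_mul, map_mul, map_mul, map_mul, hc]
      exact aux12 _
    rw [e, matAct_sub, matAct_add, matAct_sub, map_sub, map_add, map_sub, hY, hY, hY, hY]
    simp
  have E21 : matAct Y (matAct (!![0, 0; 4 * rb h0 1 0, 0] : Matrix (Fin 2) (Fin 2) k) u) = 0 := by
    have e : (!![0, 0; 4 * rb h0 1 0, 0] : Matrix (Fin 2) (Fin 2) k)
        = rb h0 + rb (h0 * c) - rb (c * h0) - rb (c * h0 * c) := by
      rw [map_mul, map_mul, map_mul, map_mul, hc]
      exact aux21 _
    rw [e, matAct_sub, matAct_sub, matAct_add, map_sub, map_sub, map_add, hY, hY, hY, hY]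
    simp
  have hu' : u 0 ≠ 0 ∨ u 1 ≠ 0 := by
    by_contra hcon
    push Not at hcon
    apply hu
    funext i
    fin_cases i
    · exact hcon.1
    · exact hcon.2
  have a11 : ∀ i, (Y i 0 * 2) • u 0 = 0 := by
    intro i
    have := congrFun E11 i
    simpa [matAct_apply, smul_smul] using this
  have a22 : ∀ i, (Y i 1 * 2) • u 1 = 0 := by
    intro i
    have := congrFun E22 i
    simpa [matAct_apply, smul_smul] using this
  have a12 : ∀ i, (Y i 0 * (4 * rb g0 0 1)) • u 1 = 0 := by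
    intro i
    have := congrFun E12 i
    simpa [matAct_apply, smul_smul] using this
  have a21 : ∀ i, (Y i 1 * (4 * rb h0 1 0)) • u 0 = 0 := by
    intro i
    have := congrFun E21 i
    simpa [matAct_apply, smul_smul] using this
  ext i j
  rw [Matrix.zero_apply]
  rcases hu' with h | h
  · fin_cases j
    · have := (smul_eq_zero.mp (a11 i)).resolve_right h
      exact (mul_eq_zero.mp this).resolve_right h2
    · have := (smul_eq_zero.mp (a21 i)).resolve_right h
      exact (mul_eq_zero.mp this).resolve_right (mul_ne_zero h4 hh0)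
  · fin_cases j
    · have := (smul_eq_zero.mp (a12 i)).resolve_right h
      exact (mul_eq_zero.mp this).resolve_right (mul_ne_zero h4 hg0)
    · have := (smul_eq_zero.mp (a22 i)).resolve_right h
      exact (mul_eq_zero.mp this).resolve_right h2

/-- **Mazur's principle, abstract form.** -/
theorem maz_abs (h2 : (2 : k) ≠ 0) (rb : G →* Matrix (Fin 2) (Fin 2) k) (c g0 h0 : G)
    (hc : rb c = !![1, 0; 0, -1]) (hg0 : rb g0 0 1 ≠ 0) (hh0 : rb h0 1 0 ≠ 0)
    {L : Type*} [AddCommGroup L] [Module k L] [Nontrivial L]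
    (w : (Fin 2 → L) →ₗ[k] (Fin 2 → L)) (hw2 : ∀ v, w (w v) = v)
    (hwG : ∀ g v, w (matAct (rb g) v) = matAct (rb g) (w v))
    (φ : G) (q : k) (hφ : ∀ v, matAct (rb φ) v = -(q • w v)) (hdet : (rb φ).det = q) (hq : q ≠ 0) :
    q = 1 ∧ ∃ e : k, e * e = 1 ∧ rb φ = e • (1 : Matrix (Fin 2) (Fin 2) k) := by
  -- a nonzero eigenvector of `w`
  obtain ⟨l, hl⟩ := exists_ne (0 : L)
  have hv0 : (Pi.single 0 l : Fin 2 → L) ≠ 0 := by
    intro h
    exact hl (by simpa using congrFun h 0)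
  obtain ⟨η, hη, u, hu, hwu⟩ : ∃ η : k, η * η = 1 ∧ ∃ u : Fin 2 → L, u ≠ 0 ∧ w u = η • u := by
    set v : Fin 2 → L := Pi.single 0 l with hv
    by_cases h : v + w v = 0
    · refine ⟨-1, by ring, v, hv0, ?_⟩
      rw [neg_smul, one_smul]
      exact (eq_neg_of_add_eq_zero_right h)
    · refine ⟨1, by ring, v + w v, h, ?_⟩
      rw [map_add, hw2, one_smul, add_comm]
  -- `rb φ + q η` kills the orbit of `u`
  have hY : ∀ g, matAct (rb φ + (q * η) • (1 : Matrix (Fin 2) (Fin 2) k)) (matAct (rb g) u) = 0 := by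
    intro g
    rw [matAct_add, matAct_smul, matAct_one, hφ, hwG, hwu, map_smul, smul_smul]
    simp
  have h0 := eq_zero_of_kills_orbit h2 rb c g0 h0 hc hg0 hh0 _ u hu hY
  have hX : rb φ = (-(q * η)) • (1 : Matrix (Fin 2) (Fin 2) k) := by
    rw [neg_smul]
    exact eq_neg_of_add_eq_zero_left h0
  have hq1 : q = 1 := by
    rw [hX, Matrix.det_smul, Matrix.det_one, Fintype.card_fin] at hdet
    have : q * (q - 1) = 0 := by
      linear_combination hdet - q ^ 2 * hη
    rcases mul_eq_zero.mp this with h | h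
    · exact absurd h hq
    · exact sub_eq_zero.mp h
  refine ⟨hq1, -(q * η), ?_, hX⟩
  rw [hq1]
  linear_combination hη

end Fermat.Agent.S43.LocA
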