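import Fermat.Agent.S43.Exact.Mat

/-!
# S43 / LOC / LOCQ, abstract part

`Sg = ρ_A(σ_q)`, `Ph = ρ_A(φ_q)` in `M₂(A)`, acting on `L²`.
From `(Sg - 1)² = 0`, `det Sg = 1` and the kernel form of (GI2)
(`v` fixed by `Sg` ⟹ `Ph v = e v`) we get `Sg - 1 = (a b; c -a)`, `a² + b c = 0` and
`L[a,b,c] ⊆ L[f]` for the four entries `f` of `Ph - e`.
-/

set_option autoImplicit false

namespace Fermat.Agent.S43.LocA

open Fermat.Agent.S43.Exact

variable {A : Type*} [CommRing A]

/-- `N² = 0`, `det (1 + N) = 1`, `2 + tr N` a unit ⟹ `tr N = 0`, `det N = 0`. -/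
theorem trace_det_of_sq_zero (N : Matrix (Fin 2) (Fin 2) A) (hN : N * N = 0)
    (hdet : (1 + N).det = 1) (hu : IsUnit (2 + N.trace)) :
    N.trace = 0 ∧ N.det = 0 := by
  have e00 := congrFun (congrFun hN 0) 0
  have e11 := congrFun (congrFun hN 1) 1
  simp only [Matrix.mul_apply, Fin.sum_univ_two, Matrix.zero_apply] at e00 e11
  rw [Matrix.det_fin_two] at hdet
  simp only [Matrix.add_apply, Matrix.one_apply_eq, Matrix.one_apply_ne (show (0 : Fin 2) ≠ 1 by decide),
    Matrix.one_apply_ne (show (1 : Fin 2) ≠ 0 by decide), zero_add] at hdet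
  have htr : N.trace * (2 + N.trace) = 0 := by
    rw [Matrix.trace_fin_two]
    linear_combination e00 + e11 + 2 * hdet
  have h0 : N.trace = 0 := by
    obtain ⟨u, hu⟩ := hu
    have := congrArg (· * ((u⁻¹ : Aˣ) : A)) htr
    simp only [zero_mul] at this
    rw [mul_assoc, ← hu, Units.mul_inv, mul_one] at this
    exact this
  refine ⟨h0, ?_⟩
  rw [Matrix.det_fin_two]
  rw [Matrix.trace_fin_two] at h0
  linear_combination hdet - h0

/-- **LOCQ, abstract form.** -/
theorem locq_abs_mat {L : Type*} [AddCommGroup L] [Module A L]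
    (Sg Ph : Matrix (Fin 2) (Fin 2) A) (e : A)
    (hN2 : (Sg - 1) * (Sg - 1) = 0) (hdet : Sg.det = 1)
    (hu : IsUnit (2 + (Sg - 1).trace))
    (hker : ∀ v : Fin 2 → L, matAct Sg v = v → matAct Ph v = e • v) :
    Sg 1 1 - 1 = -(Sg 0 0 - 1) ∧ (Sg 0 0 - 1) ^ 2 + Sg 0 1 * Sg 1 0 = 0 ∧
      ∀ l : L, (Sg 0 0 - 1) • l = 0 → Sg 0 1 • l = 0 → Sg 1 0 • l = 0 →
        ∀ i j, (Ph - e • (1 : Matrix (Fin 2) (Fin 2) A)) i j • l = 0 := by
  obtain ⟨ht, hd⟩ := trace_det_of_sq_zero (Sg - 1) hN2 (by simpa using hdet) hu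
  rw [Matrix.trace_fin_two] at ht
  rw [Matrix.det_fin_two] at hd
  simp only [Matrix.sub_apply, Matrix.one_apply_eq,
    Matrix.one_apply_ne (show (0 : Fin 2) ≠ 1 by decide),
    Matrix.one_apply_ne (show (1 : Fin 2) ≠ 0 by decide), sub_zero] at ht hd
  have h11 : Sg 1 1 - 1 = -(Sg 0 0 - 1) := by linear_combination ht
  refine ⟨h11, ?_, ?_⟩
  · rw [h11] at hd
    linear_combination (-1 : A) * hd
  · intro l ha hb hc i j
    have hd' : (Sg 1 1 - 1) • l = 0 := by rw [h11, neg_smul, ha, neg_zero]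
    have hfix : matAct Sg (Pi.single j l) = Pi.single j l := by
      funext i'
      rw [matAct_apply]
      rw [sub_smul, one_smul, sub_eq_zero] at ha hd'
      fin_cases j <;> fin_cases i' <;> simp [ha, hb, hc, hd']
    have h3 := congrFun (hker _ hfix) i
    rw [matAct_apply] at h3
    rw [Matrix.sub_apply, Matrix.smul_apply, sub_smul, sub_eq_zero]
    fin_cases j <;> fin_cases i <;> simpa using h3

end Fermat.Agent.S43.LocA
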