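import Fermat.Agent.DR.Final
import Fermat.Agent.DR.Hecke.Degen
import Fermat.Agent.MR.Glue.Frob
import Fermat.Agent.S43.Loc.Gen

/-!
# S43 / LOCQ, concrete half: the prime `q ∥ M q` at a neat level (`4 ∣ M` or `9 ∣ M`), exponent `p`

From `DR` (exact at neat levels): `(σ - 1)(τ - 1) = 0` on `V = KV Kbar (FN (M q)) p` for `σ, τ ∈ I_A`, and
`φ = - q w_q` on `K_tor`.  Together with the export of block GA (as a hypothesis `hGA`: inertia fixed classes of the
`θ`-part `X` lie in `K_tor`), `q ≡ 1 mod p` and `φ - ε` nilpotent on `X`: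
every `g ∈ D_A` acts on `X^{I_A}` through a sign.   (= (V5) of `LevelData`.)
-/

set_option autoImplicit false

namespace Fermat.Agent.S43.LocA.QGeo

open AlgebraicCurve ModularCurve Fermat.Agent.S24 Fermat.Agent.GAL Fermat.Agent.DR
  Fermat.Agent.DR.Gal

section Abs

variable {X : Type*} [AddCommGroup X]

/-- `φ x = - w x`, `w² = 1`, `φ w = w φ`, `(φ - ε)ⁿ x = 0`, `p` odd killing `X` ⟹ `φ x = ε x`. -/
theorem eq_smul_of_neg_invol (φ w : X →+ X) (p : ℕ) (hp2 : Odd p) (hpX : ∀ y : X, p • y = 0) (x : X)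
    (h1 : φ x = - w x) (hcomm : ∀ y, φ (w y) = w (φ y)) (hww : ∀ y, w (w y) = y)
    (ε : ℤ) (hε : ε = 1 ∨ ε = -1) (hnil : ∃ n : ℕ, (fun y => φ y - ε • y)^[n] x = 0) :
    φ x = ε • x := by
  have hεε : ε * ε = 1 := by rcases hε with h | h <;> rw [h] <;> norm_num
  have h2 : φ (φ x) = x := by rw [h1, map_neg, hcomm, h1, map_neg, hww, neg_neg]
  set y := φ x - ε • x with hy
  have hφy : φ y - ε • y = (-2 * ε) • y := by
    rw [hy, map_sub, h2, map_zsmul]
    linear_combination (norm := module) (-hεε) • x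
  have hit : ∀ j : ℕ, (fun y => φ y - ε • y)^[j] y = ((-2 * ε) ^ j) • y := by
    intro j
    induction j with
    | zero => simp
    | succ j ih =>
      rw [Function.iterate_succ_apply', ih]
      show φ (((-2 * ε) ^ j) • y) - ε • (((-2 * ε) ^ j) • y) = _
      rw [map_zsmul, smul_comm ε, ← smul_sub, hφy, smul_smul, pow_succ]
  obtain ⟨n, hn⟩ := hnil
  have hy0 : y = 0 := by
    cases n with
    | zero =>
      have hx : x = 0 := hn
      rw [hy, hx, map_zero, smul_zero, sub_zero]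
    | succ n =>
      rw [Function.iterate_succ_apply] at hn
      have hn' : ((-2 * ε) ^ n) • y = 0 := by rw [← hit]; exact hn
      have hcop : IsCoprime ((-2 * ε) ^ n) (p : ℤ) := by
        apply IsCoprime.pow_left
        have h2p : IsCoprime (2 : ℤ) (p : ℤ) := by
          have : Nat.Coprime 2 p := Nat.coprime_two_left.2 hp2
          exact Nat.isCoprime_iff_coprime.2 this
        rcases hε with h | h
        · rw [h]; simpa using h2p.neg_left
        · rw [h]; simpa using h2p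
      obtain ⟨a, b, hab⟩ := hcop
      have : y = (a * (-2 * ε) ^ n + b * (p : ℤ)) • y := by rw [hab, one_smul]
      rw [this, add_smul, mul_smul, hn', smul_zero, mul_smul, natCast_zsmul, hpX, smul_zero, add_zero]
  exact sub_eq_zero.1 hy0

end Abs

variable (M q : ℕ) [NeZero M] [NeZero q] (hq : q.Prime) (hqM : ¬ q ∣ M) (hneat : 4 ∣ M ∨ 9 ∣ M)
  {p : ℕ} (hp : p.Prime) (hqp : q ≠ p) (A : ValuationSubring Kbar) (hA : A.LiesOverPrime q)

include hq hqM hA hneat hp hqp in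
/-- **DR1, exact, at a neat level.** -/
theorem unip_neat (σ τ : GQ) (hσ : σ ∈ A.inertiaSubgroupIn ℚ) (hτ : τ ∈ A.inertiaSubgroupIn ℚ)
    (x : KV Kbar (FN (M * q)) p) : σ • τ • x - σ • x - τ • x + x = 0 := by
  have : Fact q.Prime := ⟨hq⟩
  have := Hecke.charP_residueField A hq hA
  have := perfectRing_residueField q A
  have h := Final.drGeomAll_of_neat M q hq hqM hneat hp hqp A hA 1
  rw [pow_one] at h
  exact unipotent_of_DRGeom A M q hq hqM hA hp.pos h σ τ hσ hτ x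

include hq hqM hA hneat hp hqp in
/-- **DR2, at a neat level.** -/
theorem frob_neat (φ : GQ) (hφ : A.IsFrobeniusAt φ q) {x : KV Kbar (FN (M * q)) p}
    (hx : x ∈ KtorC A M q hq hqM hA p) : φ • x + q • wKV M q p x = 0 := by
  have : Fact q.Prime := ⟨hq⟩
  have := Hecke.charP_residueField A hq hA
  have := perfectRing_residueField q A
  have h := Final.drGeomAll_of_neat M q hq hqM hneat hp hqp A hA 1
  rw [pow_one] at h
  exact frob_of_DRGeom A M q hq hqM hA h φ hφ hx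

include hq hqM hA hneat hp hqp in
/-- On `K_tor`, if `q ≡ 1 mod p` and `φ - ε` is nilpotent at `x`, then `φ x = ε x`. -/
theorem frob_eq_of_mem_Ktor (hp2 : p ≠ 2) (hq1 : (p : ℤ) ∣ (q : ℤ) - 1) (φ : GQ)
    (hφ : A.IsFrobeniusAt φ q) (ε : ℤ) (hε : ε = 1 ∨ ε = -1) {x : KV Kbar (FN (M * q)) p}
    (hx : x ∈ KtorC A M q hq hqM hA p) (hnil : ∃ n : ℕ, (fun y => φ • y - ε • y)^[n] x = 0) :
    φ • x = ε • x := by
  have hD := Hecke.kvDegen (M := M) (q := q) hq hqM
  have h0 := frob_neat M q hq hqM hneat hp hqp A hA φ hφ hx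
  have h1 : φ • x = - wKV M q p x := by
    obtain ⟨c, hc⟩ := hq1
    have h2 : (q : ℤ) • wKV M q p x = wKV M q p x := by
      have : (q : ℤ) = 1 + c * p := by linarith
      rw [this, add_smul, one_smul, mul_smul, natCast_zsmul, KV.nsmul_eq_zero, smul_zero, add_zero]
    rw [natCast_zsmul] at h2
    rw [h2] at h0
    exact eq_neg_of_add_eq_zero_left h0
  exact eq_smul_of_neg_invol (DistribSMul.toAddMonoidHom _ φ) (wKV M q p) p
    (hp.odd_of_ne_two hp2) (fun y => KV.nsmul_eq_zero y) x h1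
    (fun y => (hD.w_galois p φ y).symm) (wKV_wKV M q p) ε hε hnil

include hq hqM hA hneat hp hqp in
/-- **(V5) of `LevelData`, second half.**  `X` = the `θ`-part; `hGA` = export of block GA. -/
theorem dec_fixed (hp2 : p ≠ 2) (hq1 : (p : ℤ) ∣ (q : ℤ) - 1) (φ : GQ)
    (hφ : A.IsFrobeniusAt φ q) (ε : ℤ) (hε : ε = 1 ∨ ε = -1) (X : Set (KV Kbar (FN (M * q)) p))
    (hGA : ∀ x ∈ X, (∀ τ ∈ A.inertiaSubgroupIn ℚ, τ • x = x) → x ∈ KtorC A M q hq hqM hA p)
    (hnil : ∀ x ∈ X, ∃ n : ℕ, (fun y => φ • y - ε • y)^[n] x = 0)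
    (g : GQ) (hg : g ∈ A.decompositionSubgroup ℚ) :
    ∃ j : ℕ, ∀ x ∈ X, (∀ τ ∈ A.inertiaSubgroupIn ℚ, τ • x = x) → g • x = (ε ^ j) • x := by
  have : NeZero p := ⟨hp.ne_zero⟩
  obtain ⟨F, hF, hFx⟩ := MR.Glue.kv_cont (M * q) p
  let P : PT.Local.Plc := ⟨A, q, hq, hA⟩
  obtain ⟨j, τ, hτ, u, -, hu, rfl⟩ :=
    S56.F.LF.dec_gen P (Loc.isFrob_of_isFrobeniusAt P hφ) F hg
  refine ⟨j, fun x hxX hx => ?_⟩
  have hφx : φ • x = ε • x :=
    frob_eq_of_mem_Ktor M q hq hqM hneat hp hqp A hA hp2 hq1 φ hφ ε hε (hGA x hxX hx) (hnil x hxX)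
  rw [mul_smul, mul_smul, hFx u hu, hx τ hτ]
  clear hτ hg
  induction j with
  | zero => simp
  | succ j ih => rw [pow_succ, mul_smul, hφx, smul_comm, ih, smul_smul, pow_succ, mul_comm ε]

end Fermat.Agent.S43.LocA.QGeo
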