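import Fermat.Agent.S43.Exact.Mat
import Fermat.Agent.S43.Import.Hensel

/-!
# S43 / LOC / TWLOC, abstract part

`A` local of characteristic `p`, `Ph = ρ_A(φ_s)`, `Sg = ρ_A(σ_s)` at a Taylor–Wiles prime `s`,
`s - 1 = p ^ e * m`, `p ∤ m`.  Then there is `y ∈ 𝔪_A` with `y ^ (p^e) = 0`,
`(L²)^{Sg} = (L[y])²` and `∑_{i<p^e} Sg ^ i = y ^ (p^e-1) • U`, `U` invertible.
-/

set_option autoImplicit false

namespace Fermat.Agent.S43.LocA

open Fermat.Agent.S43.Exact IsLocalRing Polynomial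

variable {A : Type*} [CommRing A]

/-- geometric sum in characteristic `p`: `∑_{i<P} (1+y)^i = y^(P-1)`, `P = p^e`. -/
theorem geom_sum_one_add (p : ℕ) [Fact p.Prime] [CharP A p] (e : ℕ) (y : A) :
    ∑ i ∈ Finset.range (p ^ e), (1 + y) ^ i = y ^ (p ^ e - 1) := by
  have key : (∑ i ∈ Finset.range (p ^ e), (1 + X) ^ i : (ZMod p)[X]) = X ^ (p ^ e - 1) := by
    have h1 : ((1 + X : (ZMod p)[X]) - 1) * ∑ i ∈ Finset.range (p ^ e), (1 + X) ^ i
        = (1 + X) ^ (p ^ e) - 1 := mul_geom_sum _ _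
    rw [add_pow_char_pow, one_pow, add_sub_cancel_left, add_sub_cancel_left] at h1
    have hpos : 0 < p ^ e := pow_pos (Fact.out : p.Prime).pos e
    have h2 : (X : (ZMod p)[X]) ^ (p ^ e) = X * X ^ (p ^ e - 1) := by
      rw [← pow_succ', Nat.sub_add_cancel hpos]
    rw [h2] at h1
    exact mul_left_cancel₀ X_ne_zero h1
  let _ := ZMod.algebra A p
  have := congrArg (Polynomial.aeval y) key
  simpa using this

/-- `y` is a Taylor–Wiles parameter of `Sg`: `Sg` is conjugate to `diag(1+y, (1+y)⁻¹)`. -/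
def IsTWy (Sg : Matrix (Fin 2) (Fin 2) A) (y : A) : Prop :=
  ∃ (P : (Matrix (Fin 2) (Fin 2) A)ˣ) (δ' : A),
    Sg * (P : Matrix (Fin 2) (Fin 2) A) = (P : Matrix (Fin 2) (Fin 2) A) * Matrix.diagonal ![1 + y, δ'] ∧
    (1 + y) * δ' = 1

theorem matAct_diagonal {L : Type*} [AddCommGroup L] [Module A L] (a b : A) (v : Fin 2 → L) :
    matAct (Matrix.diagonal ![a, b]) v = ![a • v 0, b • v 1] := by
  funext i
  rw [matAct_apply]
  fin_cases i <;> simp

theorem IsTWy.fixed_iff {Sg : Matrix (Fin 2) (Fin 2) A} {y : A} (h : IsTWy Sg y)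
    {L : Type*} [AddCommGroup L] [Module A L] (v : Fin 2 → L) :
    matAct Sg v = v ↔ ∀ i, y • v i = 0 := by
  obtain ⟨P, δ', hP, hδ⟩ := h
  set Pm : Matrix (Fin 2) (Fin 2) A := (P : Matrix (Fin 2) (Fin 2) A) with hPm
  set Pi : Matrix (Fin 2) (Fin 2) A := ((P⁻¹ : (Matrix (Fin 2) (Fin 2) A)ˣ) : Matrix (Fin 2) (Fin 2) A)
    with hPi
  have h1 : Pi * Pm = 1 := P.inv_mul
  have h2 : Pm * Pi = 1 := P.mul_inv
  have hv : v = matAct Pm (matAct Pi v) := by rw [← matAct_mul, h2, matAct_one]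
  set u := matAct Pi v with hu
  have inj : ∀ a b : Fin 2 → L, matAct Pm a = matAct Pm b → a = b := by
    intro a b hab
    have := congrArg (matAct Pi) hab
    rwa [← matAct_mul, ← matAct_mul, h1, matAct_one, matAct_one] at this
  have e1 : matAct Sg v = v ↔ matAct (Matrix.diagonal ![1 + y, δ']) u = u := by
    rw [hv, ← matAct_mul, hP, matAct_mul]
    exact ⟨fun hh => inj _ _ hh, fun hh => by rw [hh]⟩
  have e2 : (∀ i, y • v i = 0) ↔ ∀ i, y • u i = 0 := by
    have a1 : (∀ i, y • v i = 0) ↔ y • v = 0 := by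
      constructor
      · intro hh; funext i; exact hh i
      · intro hh i; exact congrFun hh i
    have a2 : (∀ i, y • u i = 0) ↔ y • u = 0 := by
      constructor
      · intro hh; funext i; exact hh i
      · intro hh i; exact congrFun hh i
    rw [a1, a2]
    constructor
    · intro hh
      rw [hu, ← map_smul, hh, map_zero]
    · intro hh
      rw [hv, ← map_smul, hh, map_zero]
  rw [e1, e2, matAct_diagonal]
  constructor
  · intro hh
    have h0 := congrFun hh 0
    have h1' := congrFun hh 1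
    simp only [Matrix.cons_val_zero, Matrix.cons_val_one, Matrix.cons_val_fin_one] at h0 h1'
    intro i
    fin_cases i
    · change y • u 0 = 0
      rw [add_smul, one_smul, add_eq_left] at h0
      exact h0
    · change y • u 1 = 0
      have : (1 + y) • (δ' • u 1) = (1 + y) • u 1 := by rw [h1']
      rw [smul_smul, hδ, one_smul, add_smul, one_smul] at this
      exact (left_eq_add.mp this)
  · intro hh
    funext i
    fin_cases i
    · change (1 + y) • u 0 = u 0
      rw [add_smul, one_smul, hh 0, add_zero]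
    · change δ' • u 1 = u 1
      have : u 1 = (1 + y) • u 1 := by rw [add_smul, one_smul, hh 1, add_zero]
      conv_lhs => rw [this]
      rw [smul_smul, mul_comm, hδ, one_smul]

theorem IsTWy.norm {Sg : Matrix (Fin 2) (Fin 2) A} {y : A} (h : IsTWy Sg y)
    (p : ℕ) [Fact p.Prime] [CharP A p] (e : ℕ) :
    ∃ U : (Matrix (Fin 2) (Fin 2) A)ˣ,
      ∑ i ∈ Finset.range (p ^ e), Sg ^ i = y ^ (p ^ e - 1) • (U : Matrix (Fin 2) (Fin 2) A) := by
  obtain ⟨P, δ', hP, hδ⟩ := h
  set Pm : Matrix (Fin 2) (Fin 2) A := (P : Matrix (Fin 2) (Fin 2) A) with hPm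
  set Pi : Matrix (Fin 2) (Fin 2) A := ((P⁻¹ : (Matrix (Fin 2) (Fin 2) A)ˣ) : Matrix (Fin 2) (Fin 2) A)
    with hPi
  have h1 : Pi * Pm = 1 := P.inv_mul
  have h2 : Pm * Pi = 1 := P.mul_inv
  have hSg : Sg = Pm * Matrix.diagonal ![1 + y, δ'] * Pi := by
    rw [← hP, mul_assoc, h2, mul_one]
  have hpow : ∀ i : ℕ, Sg ^ i = Pm * Matrix.diagonal ![(1 + y) ^ i, δ' ^ i] * Pi := by
    intro i
    induction i with
    | zero =>
      have : Matrix.diagonal ![(1 + y) ^ 0, δ' ^ 0] = (1 : Matrix (Fin 2) (Fin 2) A) := by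
        ext a b
        fin_cases a <;> fin_cases b <;> simp
      rw [this, mul_one, h2, pow_zero]
    | succ i ih =>
      rw [pow_succ, ih, hSg]
      have : Pm * Matrix.diagonal ![(1 + y) ^ i, δ' ^ i] * Pi * (Pm * Matrix.diagonal ![1 + y, δ'] * Pi)
          = Pm * (Matrix.diagonal ![(1 + y) ^ i, δ' ^ i] * (Pi * Pm) * Matrix.diagonal ![1 + y, δ']) * Pi := by
        simp only [mul_assoc]
      rw [this, h1, mul_one, Matrix.diagonal_mul_diagonal]
      congr 2
      ext a b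
      fin_cases a <;> fin_cases b <;> simp [pow_succ]
  -- `δ' = 1 + y'`, `y' = - δ' y`
  have hy' : δ' = 1 + (-δ' * y) := by linear_combination hδ
  have s1 := geom_sum_one_add (A := A) p e y
  have s2 := geom_sum_one_add (A := A) p e (-δ' * y)
  rw [← hy'] at s2
  have hunit : IsUnit ((-δ') ^ (p ^ e - 1)) := by
    apply IsUnit.pow
    exact ⟨⟨-δ', -(1 + y), by linear_combination hδ, by linear_combination hδ⟩, rfl⟩
  obtain ⟨w, hw⟩ := hunit
  let Dg : (Matrix (Fin 2) (Fin 2) A)ˣ :=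
    ⟨Matrix.diagonal ![1, (w : A)], Matrix.diagonal ![1, ((w⁻¹ : Aˣ) : A)], by
      rw [Matrix.diagonal_mul_diagonal]
      ext a b
      fin_cases a <;> fin_cases b <;> simp, by
      rw [Matrix.diagonal_mul_diagonal]
      ext a b
      fin_cases a <;> fin_cases b <;> simp⟩
  refine ⟨P * Dg * P⁻¹, ?_⟩
  simp only [hpow]
  rw [← Finset.sum_mul, ← Finset.mul_sum]
  have hsum : ∑ i ∈ Finset.range (p ^ e), Matrix.diagonal ![(1 + y) ^ i, δ' ^ i]
      = y ^ (p ^ e - 1) • Matrix.diagonal ![1, (w : A)] := by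
    ext a b
    rw [Matrix.sum_apply]
    fin_cases a <;> fin_cases b
    · simpa using s1
    · simp
    · simp
    · simp only [Fin.mk_one, Fin.isValue, Matrix.diagonal_apply_eq, Matrix.cons_val_one,
        Matrix.cons_val_fin_one, Matrix.smul_apply, smul_eq_mul]
      rw [s2, hw, mul_pow, mul_comm]
  rw [hsum]
  simp only [Units.val_mul, Matrix.mul_smul, Matrix.smul_mul]
  rfl

/-- **TWLOC, abstract form.** -/
theorem twloc_abs [IsLocalRing A] (p : ℕ) [Fact p.Prime] [CharP A p]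
    (Ph Sg : Matrix (Fin 2) (Fin 2) A) (α β : A) (hα : IsUnit α) (hβ : IsUnit β)
    (hαβ : IsUnit (α - β)) (htr : Ph.trace = α + β) (hdet : Ph.det = α * β)
    (hSg : (residue A).mapMatrix Sg = 1) (s : ℕ) (hs : (s : A) - 1 ∈ maximalIdeal A)
    (h : Ph * Sg = Sg ^ s * Ph) (hs0 : 0 < s) (hdetS : Sg.det = 1)
    (e m : ℕ) (hsm : s - 1 = p ^ e * m) (hm : ¬ p ∣ m) :
    ∃ y ∈ maximalIdeal A, y ^ (p ^ e) = 0 ∧ IsTWy Sg y := by
  obtain ⟨P, δ, δ', -, hP, hδ, -, hpw, -, hdd⟩ :=
    Import.Hensel.tw_local Ph Sg α β hα hβ hαβ htr hdet hSg s hs h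
  rw [hdetS] at hdd
  refine ⟨δ - 1, hδ, ?_, P, δ', by rw [add_sub_cancel]; exact hP, by rw [add_sub_cancel]; exact hdd.symm⟩
  have h1 := Import.Hensel.pow_pred_eq_one hδ hs0 hpw
  rw [hsm, pow_mul] at h1
  set y := δ - 1 with hy
  have hδy : δ = 1 + y := by rw [hy]; ring
  have h2 : δ ^ (p ^ e) = 1 + y ^ (p ^ e) := by
    rw [hδy, add_pow_char_pow, one_pow]
  set z := y ^ (p ^ e) with hz
  have hzm : z ∈ maximalIdeal A :=
    Ideal.pow_mem_of_mem _ hδ _ (pow_pos (Fact.out : p.Prime).pos e)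
  rw [h2] at h1
  have h3 : ((1 + z) - 1) * ∑ i ∈ Finset.range m, (1 + z) ^ i = (1 + z) ^ m - 1 := mul_geom_sum _ _
  rw [h1, sub_self, add_sub_cancel_left] at h3
  have hu : IsUnit (∑ i ∈ Finset.range m, (1 + z) ^ i) := by
    by_contra hcon
    have hmem : (∑ i ∈ Finset.range m, (1 + z) ^ i) ∈ maximalIdeal A := (mem_maximalIdeal _).2 hcon
    have hres := (residue_eq_zero_iff _).2 hmem
    have hzr : residue A z = 0 := (residue_eq_zero_iff _).2 hzm
    rw [map_sum] at hres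
    simp only [map_pow, map_add, map_one, hzr, add_zero, one_pow, Finset.sum_const,
      Finset.card_range, nsmul_eq_mul, mul_one] at hres
    -- `(m : A)` is a unit
    have hcop : Nat.Coprime m p := ((Nat.Prime.coprime_iff_not_dvd Fact.out).2 hm).symm
    have hmu : IsUnit ((m : ℕ) : A) := by
      have hz0 := (ZMod.isUnit_iff_coprime m p).2 hcop
      let _ := ZMod.algebra A p
      have h4 := hz0.map (algebraMap (ZMod p) A)
      simpa using h4
    have h5 := hmu.map (residue A)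
    rw [map_natCast, hres] at h5
    exact not_isUnit_zero h5
  exact (hu.mul_left_eq_zero).1 h3

end Fermat.Agent.S43.LocA
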