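import Fermat.Agent.S43.LocA.TwMat
import Fermat.Agent.S43.Tan.Dual

/-!
# S43 / LocA / TWConc : the `y`-hypotheses of `Tan.master_ker` from the output of the GMA theorem

`k` a field of characteristic `p`, `A` a commutative `k`-algebra with an augmentation `π : A →ₐ[k] k` with nilpotent kernel,
`V ≃ L²` an `A`-module with an action `r` of a group `G` given by `ρ : G →* GL₂(A)` (shape of `GMAL.gma_main` /
`Exact.gma_main`), `ρ mod ker π = rb`.  At the Taylor–Wiles primes `i : Fin n₀`: `σ i, φ i ∈ G`, `I i ⊆ G` with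

* `r τ = r (σ i) ^ j` for `τ ∈ I i`;  `r (φ i) * r (σ i) = r (σ i) ^ s i * r (φ i)`  (tame relation, ON `V`);
* `rb (σ i) = 1`, `det ρ (σ i) = 1`, `rb (φ i)` has distinct eigenvalues in `k`, `s i = p ^ e i * u i + 1`, `p ∤ u i`.

`twloc_main` : there are `y i ∈ ker π` with `y i ^ (p ^ e i) = 0`, `V^{I} = V[y]`, and any ordered product of the norms
`∑_{j < p ^ e i} r (σ i) ^ j` is nonzero on `V` iff `∏ y i ^ (p ^ e i - 1)` is nonzero on `L`.
`twloc_master` : exactly the hypotheses `hyπ hyP hA hB` of `Tan.master_ker`.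
Pure algebra.
-/

set_option autoImplicit false
set_option linter.style.haveILetI false

namespace Fermat.Agent.S43.LocA.TWConc

open IsLocalRing Matrix Module
open Fermat.Agent.S43.Exact (matAct matAct_apply matAct_mul matAct_one matAct_smul matAct_sub
  matAct_add matAct_zero eq_of_matAct)
open Fermat.Agent.S43.Tan (kerFam mem_kerFam)

section Aug

variable {k A : Type*} [Field k] [CommRing A] [Algebra k A] (π : A →ₐ[k] k)

theorem isNilpotent_of_mem_ker (hnil : ∃ N, (RingHom.ker π : Ideal A) ^ N = ⊥) {x : A}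
    (hx : x ∈ RingHom.ker π) : IsNilpotent x := by
  obtain ⟨N, hN⟩ := hnil
  refine ⟨N, ?_⟩
  have : x ^ N ∈ (RingHom.ker π : Ideal A) ^ N := Ideal.pow_mem_pow hx N
  rwa [hN, Ideal.mem_bot] at this

theorem isUnit_of_aug (hnil : ∃ N, (RingHom.ker π : Ideal A) ^ N = ⊥) {x : A} (hx : π x ≠ 0) :
    IsUnit x := by
  have h1 : x - algebraMap k A (π x) ∈ RingHom.ker π := by
    rw [RingHom.mem_ker, map_sub, AlgHom.commutes]
    simp
  have h2 := isNilpotent_of_mem_ker π hnil h1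
  have h3 : IsUnit (algebraMap k A (π x)) := (IsUnit.mk0 _ hx).map (algebraMap k A)
  have := h2.isUnit_add_left_of_commute h3 (Commute.all _ _)
  simpa using this

theorem isLocalRing_of_aug (hnil : ∃ N, (RingHom.ker π : Ideal A) ^ N = ⊥) : IsLocalRing A := by
  haveI : Nontrivial A := ⟨⟨0, 1, fun h => by
    have := congrArg π h
    simp at this⟩⟩
  refine IsLocalRing.of_isUnit_or_isUnit_one_sub_self fun a => ?_
  by_cases h : π a = 0
  · right
    apply isUnit_of_aug π hnil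
    rw [map_sub, map_one, h]
    simp
  · left
    exact isUnit_of_aug π hnil h

theorem maximalIdeal_eq_ker [IsLocalRing A] : maximalIdeal A = RingHom.ker π := by
  have hs : Function.Surjective π := fun c => ⟨algebraMap k A c, by rw [AlgHom.commutes]; rfl⟩
  have : (RingHom.ker π : Ideal A).IsMaximal := RingHom.ker_isMaximal_of_surjective π hs
  exact (IsLocalRing.eq_maximalIdeal this).symm

end Aug

section PPow

variable {A : Type*} [CommRing A]

theorem pow_entry_mem (I : Ideal A) (Y : Matrix (Fin 2) (Fin 2) A) (hY : ∀ i j, Y i j ∈ I) (n : ℕ) :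
    ∀ i j, (Y ^ n) i j ∈ I ^ n := by
  induction n with
  | zero => intro i j; simp
  | succ n ih =>
    intro i j
    rw [pow_succ, pow_succ, Matrix.mul_apply]
    exact Ideal.sum_mem _ fun c _ => Ideal.mul_mem_mul (ih i c) (hY c j)

/-- a matrix which is `1` modulo a nilpotent ideal has `p`-power order (characteristic `p`). -/
theorem exists_pow_eq_one (p : ℕ) [Fact p.Prime] [CharP A p] (I : Ideal A) (hI : ∃ N, I ^ N = ⊥)
    (X : Matrix (Fin 2) (Fin 2) A) (hX : ∀ i j, (X - 1) i j ∈ I) : ∃ N, X ^ p ^ N = 1 := by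
  obtain ⟨N, hN⟩ := hI
  refine ⟨N, ?_⟩
  have h0 : (X - 1) ^ N = 0 := by
    ext i j
    have := pow_entry_mem I (X - 1) hX N i j
    rwa [hN, Ideal.mem_bot] at this
  have h1 : X = (X - 1) + 1 := by abel
  have hle : N ≤ p ^ N := (Nat.lt_pow_self (Fact.out : p.Prime).one_lt).le
  conv_lhs => rw [h1]
  rw [add_pow_char_pow_of_commute _ _ (Commute.one_right _), one_pow, pow_eq_zero_of_le hle h0,
    zero_add]

end PPow

section Op

variable {A : Type*} [CommRing A] {V L : Type*} [AddCommGroup V] [Module A V] [AddCommGroup L]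
  [Module A L]

/-- `X ↦ Ψ ∘ X ∘ Ψ⁻¹`. -/
def opV (Ψ : (Fin 2 → L) ≃ₗ[A] V) : Matrix (Fin 2) (Fin 2) A →+* Module.End A V where
  toFun X := Ψ.toLinearMap ∘ₗ matAct X ∘ₗ Ψ.symm.toLinearMap
  map_one' := by
    ext v
    simp [matAct_one]
  map_mul' X Y := by
    ext v
    simp [matAct_mul]
  map_zero' := by
    ext v
    simp [matAct_zero]
  map_add' X Y := by
    ext v
    simp [matAct_add]

theorem opV_apply (Ψ : (Fin 2 → L) ≃ₗ[A] V) (X : Matrix (Fin 2) (Fin 2) A) (v : V) :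
    opV Ψ X v = Ψ (matAct X (Ψ.symm v)) := rfl

theorem opV_injective (Ψ : (Fin 2 → L) ≃ₗ[A] V) (hL : ∀ a : A, (∀ x : L, a • x = 0) → a = 0) :
    Function.Injective (opV Ψ) := by
  intro X Y h
  apply eq_of_matAct hL
  intro v
  have := LinearMap.congr_fun h (Ψ v)
  rw [opV_apply, opV_apply, Ψ.symm_apply_apply] at this
  exact Ψ.injective this

theorem opV_exists_ne_zero_iff (Ψ : (Fin 2 → L) ≃ₗ[A] V) (X : Matrix (Fin 2) (Fin 2) A) :
    (∃ w : V, opV Ψ X w ≠ 0) ↔ ∃ v : Fin 2 → L, matAct X v ≠ 0 := by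
  constructor
  · rintro ⟨w, hw⟩
    refine ⟨Ψ.symm w, fun h => hw ?_⟩
    rw [opV_apply, h, map_zero]
  · rintro ⟨v, hv⟩
    refine ⟨Ψ v, fun h => hv ?_⟩
    rw [opV_apply, Ψ.symm_apply_apply] at h
    exact Ψ.map_eq_zero_iff.1 h

end Op

section One

variable {k A : Type*} [Field k] [CommRing A] [Algebra k A] (π : A →ₐ[k] k) {G : Type*} [Group G]

theorem entry_eq {ρ : G →* GL (Fin 2) A} {rb : G →* GL (Fin 2) k}
    (hρ : ∀ g, (ρ g).1.map π = (rb g).1) (g : G) (i j : Fin 2) : π ((ρ g).1 i j) = (rb g).1 i j := by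
  rw [← hρ g]
  rfl

/-- one Taylor–Wiles prime, level of `ρ`. -/
theorem exists_y_one (p : ℕ) [Fact p.Prime] [CharP k p]
    (hnil : ∃ N, (RingHom.ker π : Ideal A) ^ N = ⊥)
    (ρ : G →* GL (Fin 2) A) (rb : G →* GL (Fin 2) k) (hρ : ∀ g, (ρ g).1.map π = (rb g).1)
    (σ φ : G) (s e u : ℕ) (hrel : ρ φ * ρ σ = ρ σ ^ s * ρ φ) (hσ1 : rb σ = 1)
    (hdet : (ρ σ).1.det = 1) (a0 b0 : k) (hab : a0 ≠ b0) (htr : (rb φ).1.trace = a0 + b0)
    (hdt : (rb φ).1.det = a0 * b0) (hse : s = p ^ e * u + 1) (he : 0 < e) (hu : ¬ p ∣ u) :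
    ∃ y ∈ RingHom.ker π, IsTwY (ρ σ).1 y ∧ y ^ (p ^ e) = 0 := by
  haveI := isLocalRing_of_aug π hnil
  haveI : CharP A p := charP_of_injective_algebraMap (algebraMap k A).injective p
  have hmax := maximalIdeal_eq_ker π
  have hE := entry_eq π hρ
  have hd0 : a0 * b0 ≠ 0 := by
    rw [← hdt]
    exact ((Matrix.isUnit_iff_isUnit_det _).1 (rb φ).isUnit).ne_zero
  have ha0 : a0 ≠ 0 := left_ne_zero_of_mul hd0
  have hb0 : b0 ≠ 0 := right_ne_zero_of_mul hd0
  have hcomm : ∀ c : k, π (algebraMap k A c) = c := fun c => by rw [AlgHom.commutes]; rfl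
  obtain ⟨y, hy, h1, h2⟩ := tw_y' p (fun x hx => isNilpotent_of_mem_ker π hnil (hmax ▸ hx))
    (ρ φ).1 (ρ σ).1 (algebraMap k A a0) (algebraMap k A b0)
    ((IsUnit.mk0 _ ha0).map _) ((IsUnit.mk0 _ hb0).map _)
    (by rw [← map_sub]; exact (IsUnit.mk0 _ (sub_ne_zero.2 hab)).map _)
    (by
      rw [hmax, RingHom.mem_ker, Matrix.trace_fin_two, map_sub, map_add, map_add, hE, hE, hcomm,
        hcomm, ← Matrix.trace_fin_two, htr, sub_self])
    (by
      rw [hmax, RingHom.mem_ker, Matrix.det_fin_two, map_sub, map_sub, map_mul, map_mul, map_mul,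
        hE, hE, hE, hE, hcomm, hcomm, ← Matrix.det_fin_two, hdt, sub_self])
    (by
      ext i j
      have h3 : (ρ σ).1 i j - (1 : Matrix (Fin 2) (Fin 2) A) i j ∈ maximalIdeal A := by
        rw [hmax, RingHom.mem_ker, map_sub, hE, hσ1]
        by_cases hij : i = j
        · subst hij; simp
        · simp [hij]
      have h4 := (IsLocalRing.residue_eq_zero_iff _).2 h3
      rw [map_sub, sub_eq_zero] at h4
      rw [RingHom.mapMatrix_apply, Matrix.map_apply, h4]
      by_cases hij : i = j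
      · subst hij; simp
      · simp [hij])
    hdet s e u hse he hu
    (by
      have := congrArg Units.val hrel
      simpa using this)
  exact ⟨y, hmax ▸ hy, h1, h2⟩

end One

section Main

variable {k A : Type*} [Field k] [CommRing A] [Algebra k A] (π : A →ₐ[k] k) {G : Type*} [Group G]
  {V L : Type*} [AddCommGroup V] [Module A V] [AddCommGroup L] [Module A L]

theorem opV_rho {ρ : G →* GL (Fin 2) A} {r : G →* Module.End A V} {Ψ : (Fin 2 → L) ≃ₗ[A] V}
    (hΨ : ∀ g v, r g (Ψ v) = Ψ (matAct (ρ g).1 v)) (g : G) : opV Ψ (ρ g).1 = r g := by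
  ext v
  rw [opV_apply, ← hΨ, Ψ.apply_symm_apply]

theorem end_fix_pow {f : Module.End A V} {v : V} (h : f v = v) (j : ℕ) : (f ^ j) v = v := by
  induction j with
  | zero => rfl
  | succ j ih => rw [pow_succ, Module.End.mul_apply, h, ih]

/-- **TWLOC, abstract form.** -/
theorem twloc_main (p : ℕ) [Fact p.Prime] [CharP k p]
    (hnil : ∃ N, (RingHom.ker π : Ideal A) ^ N = ⊥)
    (ρ : G →* GL (Fin 2) A) (rb : G →* GL (Fin 2) k) (hρ : ∀ g, (ρ g).1.map π = (rb g).1)
    (r : G →* Module.End A V) (Ψ : (Fin 2 → L) ≃ₗ[A] V)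
    (hΨ : ∀ g v, r g (Ψ v) = Ψ (matAct (ρ g).1 v))
    (hL : ∀ a : A, (∀ x : L, a • x = 0) → a = 0)
    {n₀ : ℕ} (σ φ : Fin n₀ → G) (I : Fin n₀ → Set G) (s e u : Fin n₀ → ℕ)
    (hσI : ∀ i, σ i ∈ I i)
    (hgen : ∀ i, ∀ τ ∈ I i, ∃ j : ℕ, r τ = r (σ i) ^ j)
    (hrel : ∀ i, r (φ i) * r (σ i) = r (σ i) ^ s i * r (φ i))
    (hσ1 : ∀ i, rb (σ i) = 1) (hdet : ∀ i, (ρ (σ i)).1.det = 1)
    (a0 b0 : Fin n₀ → k) (hab : ∀ i, a0 i ≠ b0 i) (htr : ∀ i, (rb (φ i)).1.trace = a0 i + b0 i)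
    (hdt : ∀ i, (rb (φ i)).1.det = a0 i * b0 i) (hse : ∀ i, s i = p ^ e i * u i + 1)
    (he : ∀ i, 0 < e i) (hu : ∀ i, ¬ p ∣ u i) :
    ∃ y : Fin n₀ → A, (∀ i, y i ∈ RingHom.ker π) ∧ (∀ i, y i ^ (p ^ e i) = 0) ∧
      (∀ v : V, (∀ i, ∀ τ ∈ I i, r τ v = v) ↔ ∀ i, y i • v = 0) ∧
      (∀ is : List (Fin n₀),
        (∃ w : V, (is.map fun i => ∑ j ∈ Finset.range (p ^ e i), r (σ i) ^ j).prod w ≠ 0) ↔
          ∃ l : L, (is.map fun i => y i ^ (p ^ e i - 1)).prod • l ≠ 0) := by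
  have hO := opV_rho (ρ := ρ) (r := r) (Ψ := Ψ) hΨ
  have hinj := opV_injective Ψ hL
  have hrel' : ∀ i, ρ (φ i) * ρ (σ i) = ρ (σ i) ^ s i * ρ (φ i) := by
    intro i
    apply Units.ext
    apply hinj
    rw [Units.val_mul, Units.val_mul, Units.val_pow_eq_pow_val, map_mul, map_mul, map_pow, hO, hO]
    exact hrel i
  have key : ∀ i, ∃ y ∈ RingHom.ker π, IsTwY (ρ (σ i)).1 y ∧ y ^ (p ^ e i) = 0 := fun i =>
    exists_y_one π p hnil ρ rb hρ (σ i) (φ i) (s i) (e i) (u i) (hrel' i) (hσ1 i) (hdet i)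
      (a0 i) (b0 i) (hab i) (htr i) (hdt i) (hse i) (he i) (hu i)
  choose y hy1 hy2 hy3 using key
  have hfix : ∀ i (v : V), r (σ i) v = v ↔ y i • v = 0 := by
    intro i v
    obtain ⟨w, rfl⟩ := Ψ.surjective v
    rw [hΨ, Ψ.injective.eq_iff, (hy2 i).fix_iff L w, ← map_smul, Ψ.map_eq_zero_iff]
  refine ⟨y, hy1, hy3, fun v => ⟨fun h i => (hfix i v).1 (h i _ (hσI i)), fun h i τ hτ => ?_⟩,
    fun is => ?_⟩
  · obtain ⟨j, hj⟩ := hgen i τ hτ
    rw [hj]
    exact end_fix_pow ((hfix i v).2 (h i)) j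
  · haveI : Nontrivial A := (isLocalRing_of_aug π hnil).toNontrivial
    haveI : CharP A p := charP_of_injective_algebraMap (algebraMap k A).injective p
    letI : Algebra (ZMod p) (Matrix (Fin 2) (Fin 2) A) := ZMod.algebra _ p
    have hN : ∀ i, ∑ j ∈ Finset.range (p ^ e i), r (σ i) ^ j =
        opV Ψ (((ρ (σ i)).1 - 1) ^ (p ^ e i - 1)) := by
      intro i
      rw [← geom_sum_eq_sub_one_pow p, map_sum]
      refine Finset.sum_congr rfl fun j _ => ?_
      rw [map_pow, hO]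
    have h1 : (is.map fun i => ∑ j ∈ Finset.range (p ^ e i), r (σ i) ^ j).prod =
        opV Ψ ((is.map fun i => (((ρ (σ i)).1 - 1) ^ (p ^ e i - 1),
          y i ^ (p ^ e i - 1))).map Prod.fst).prod := by
      rw [map_list_prod, List.map_map, List.map_map]
      congr 1
      apply List.map_congr_left
      intro i _
      exact hN i
    have h2 := ScalUnit.list_prod (is.map fun i => (((ρ (σ i)).1 - 1) ^ (p ^ e i - 1),
      y i ^ (p ^ e i - 1))) (by
        intro x hx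
        obtain ⟨i, _, rfl⟩ := List.mem_map.1 hx
        exact (hy2 i).scalUnit.pow _)
    rw [h1, opV_exists_ne_zero_iff, h2.exists_ne_zero_iff (L := L), List.map_map]
    rfl

variable [Module k V] [IsScalarTower k A V]

/-- **TWLOC, the hypotheses `hyπ hyP hA hB` of `Tan.master_ker`.**  `L` is a submodule of `V` (as in the GMA theorems);
`Fx` is any finite dimensional `k`-subspace of `V` containing the vectors fixed by all the `I i` (CONTROL);
`is` any ordering of the Taylor–Wiles primes (SIZE). -/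
theorem twloc_master (p : ℕ) [Fact p.Prime] [CharP k p]
    (hnil : ∃ N, (RingHom.ker π : Ideal A) ^ N = ⊥)
    (ρ : G →* GL (Fin 2) A) (rb : G →* GL (Fin 2) k) (hρ : ∀ g, (ρ g).1.map π = (rb g).1)
    (r : G →* Module.End A V) (L : Submodule A V) (Ψ : (Fin 2 → L) ≃ₗ[A] V)
    (hΨ : ∀ g v, r g (Ψ v) = Ψ (matAct (ρ g).1 v))
    (hL : ∀ a : A, (∀ x : L, a • x = 0) → a = 0)
    {n₀ : ℕ} (σ φ : Fin n₀ → G) (I : Fin n₀ → Set G) (s e u : Fin n₀ → ℕ)
    (hσI : ∀ i, σ i ∈ I i)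
    (hgen : ∀ i, ∀ τ ∈ I i, ∃ j : ℕ, r τ = r (σ i) ^ j)
    (hrel : ∀ i, r (φ i) * r (σ i) = r (σ i) ^ s i * r (φ i))
    (hσ1 : ∀ i, rb (σ i) = 1) (hdet : ∀ i, (ρ (σ i)).1.det = 1)
    (a0 b0 : Fin n₀ → k) (hab : ∀ i, a0 i ≠ b0 i) (htr : ∀ i, (rb (φ i)).1.trace = a0 i + b0 i)
    (hdt : ∀ i, (rb (φ i)).1.det = a0 i * b0 i) (hse : ∀ i, s i = p ^ e i * u i + 1)
    (he : ∀ i, 0 < e i) (hu : ∀ i, ¬ p ∣ u i)
    (Fx : Submodule k V) [FiniteDimensional k Fx]
    (hFx : ∀ v : V, (∀ i, ∀ τ ∈ I i, r τ v = v) → v ∈ Fx)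
    (is : List (Fin n₀)) (his : is.Perm (List.finRange n₀))
    (hS : ∃ w : V, (is.map fun i => ∑ j ∈ Finset.range (p ^ e i), r (σ i) ^ j).prod w ≠ 0) :
    ∃ y : Fin n₀ → A, (∀ i, y i ∈ RingHom.ker π) ∧ (∀ i (l : L), y i ^ (p ^ e i) • l = 0) ∧
      (∃ v : L, (∏ i, y i ^ (p ^ e i - 1)) • v ≠ 0) ∧
      2 * finrank k (kerFam k L y) ≤ finrank k Fx := by
  obtain ⟨y, h1, h2, h3, h4⟩ := twloc_main π p hnil ρ rb hρ r Ψ hΨ hL σ φ I s e u hσI hgen hrel hσ1
    hdet a0 b0 hab htr hdt hse he hu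
  refine ⟨y, h1, fun i l => by rw [h2 i, zero_smul], ?_, ?_⟩
  · obtain ⟨l, hl⟩ := (h4 is).1 hS
    refine ⟨l, ?_⟩
    rwa [(his.map _).prod_eq, ← List.ofFn_eq_map, List.prod_ofFn] at hl
  · -- `(L[y])² ↪ Fx`
    let f : (Fin 2 → kerFam k L y) →ₗ[k] Fx :=
      LinearMap.codRestrict Fx
        ((Ψ.toLinearMap.restrictScalars k) ∘ₗ
          (LinearMap.pi fun i => (kerFam k L y).subtype ∘ₗ LinearMap.proj i))
        (by
          intro c
          apply hFx
          rw [h3]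
          intro i
          change y i • Ψ (fun a => ((c a : kerFam k L y) : L)) = 0
          rw [← map_smul]
          have : (y i • fun a => ((c a : kerFam k L y) : L)) = 0 := by
            funext a
            exact (c a).2 i
          rw [this, map_zero])
    have hf : Function.Injective f := by
      intro c c' h
      have h5 := congrArg Subtype.val h
      change Ψ (fun a => ((c a : kerFam k L y) : L)) = Ψ (fun a => ((c' a : kerFam k L y) : L)) at h5
      have h6 := Ψ.injective h5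
      funext a
      exact Subtype.ext (congrFun h6 a)
    have h7 := LinearMap.finrank_le_finrank_of_injective hf
    haveI : FiniteDimensional k (Fin 2 → kerFam k L y) := FiniteDimensional.of_injective f hf
    haveI : FiniteDimensional k (kerFam k L y) :=
      FiniteDimensional.of_injective (LinearMap.single k (fun _ : Fin 2 => kerFam k L y) 0)
        (fun a b h => by simpa using congrFun h 0)
    rw [Module.finrank_pi_fintype] at h7
    simpa [two_mul] using h7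

end Main

end Fermat.Agent.S43.LocA.TWConc
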