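import Fermat.Agent.S43.Import.Hensel
import Fermat.Agent.S43.Exact.Mat

/-!
# S43 / LocA / TwMat : the local structure of `ρ_A` at a Taylor–Wiles prime (pure algebra)

* `exists_roots` : Hensel (Newton) for a quadratic polynomial over a local ring with nil maximal ideal;
* `ScalUnit X z` : `X = z • U`, `U` an invertible matrix (stable under products);
* `IsTwY Sg y` : `Sg` is conjugate to `diag(1 + y, (1 + y)⁻¹)`;
  `IsTwY.fix_iff` (`Sg v = v ↔ y v = 0` on `L²`), `IsTwY.scalUnit` (`Sg - 1 = y • U`);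
* `pow_eq_zero_of_one_add` : `y ^ P = 0`, `P` the `p`-part of `s - 1`;
* `geom_sum_eq_sub_one_pow` : `∑_{i < p ^ e} x ^ i = (x - 1) ^ (p ^ e - 1)` in characteristic `p`;
* `tw_y` : the export (on top of `Hensel.tw_local`);
* `trace_eq_two_of_sq` : `Ph S Ph⁻¹ = S ^ 2`, `det S = 1`, `tr S ≡ 2`, `3` invertible  ⟹  `tr S = 2`.
-/

set_option autoImplicit false

namespace Fermat.Agent.S43.LocA

open IsLocalRing Matrix Polynomial
open Fermat.Agent.S43.Exact (matAct matAct_apply matAct_mul matAct_one matAct_smul matAct_sub)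

section Newton

variable {A : Type*} [CommRing A] [IsLocalRing A]

theorem mem_max_of_nilpotent {x : A} (h : IsNilpotent x) : x ∈ maximalIdeal A := by
  obtain ⟨n, hn⟩ := h
  exact (maximalIdeal.isMaximal A).isPrime.mem_of_pow_mem n (by rw [hn]; exact Ideal.zero_mem _)

theorem isUnit_of_sub_mem {x y : A} (hx : IsUnit x) (h : y - x ∈ maximalIdeal A) : IsUnit y := by
  by_contra hcon
  have h1 : y ∈ maximalIdeal A := (mem_maximalIdeal _).2 hcon
  have h2 : x ∈ maximalIdeal A := by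
    have := Ideal.sub_mem _ h1 h
    simpa using this
  exact (mem_maximalIdeal _).1 h2 hx

/-- Hensel's lemma for `X² - t X + d` with distinct residual roots `a0, b0`. -/
theorem exists_roots (hnil : ∀ x ∈ maximalIdeal A, IsNilpotent x) (t d a0 b0 : A)
    (h1 : t - (a0 + b0) ∈ maximalIdeal A) (h2 : d - a0 * b0 ∈ maximalIdeal A)
    (hab : IsUnit (a0 - b0)) :
    ∃ α β : A, t = α + β ∧ d = α * β ∧ α - a0 ∈ maximalIdeal A ∧ β - b0 ∈ maximalIdeal A := by
  let Q : A[X] := X ^ 2 - C t * X + C d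
  have hQ : ∀ x : A, aeval x Q = x ^ 2 - t * x + d := by
    intro x
    simp [Q]
  have hQ' : ∀ x : A, aeval x (derivative Q) = 2 * x - t := by
    intro x
    simp [Q]
    ring
  have e1 : IsNilpotent (aeval a0 Q) := by
    apply hnil
    rw [hQ]
    have : a0 ^ 2 - t * a0 + d = (d - a0 * b0) - a0 * (t - (a0 + b0)) := by ring
    rw [this]
    exact Ideal.sub_mem _ h2 (Ideal.mul_mem_left _ _ h1)
  have e2 : IsUnit (aeval a0 (derivative Q)) := by
    rw [hQ']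
    apply isUnit_of_sub_mem hab
    have : 2 * a0 - t - (a0 - b0) = - (t - (a0 + b0)) := by ring
    rw [this]
    exact Ideal.neg_mem_iff _ |>.2 h1
  obtain ⟨α, ⟨hα1, hα2⟩, -⟩ := Polynomial.existsUnique_nilpotent_sub_and_aeval_eq_zero e1 e2
  rw [hQ] at hα2
  have hm : a0 - α ∈ maximalIdeal A := mem_max_of_nilpotent hα1
  refine ⟨α, t - α, by ring, by linear_combination hα2, ?_, ?_⟩
  · have : α - a0 = - (a0 - α) := by ring
    rw [this]
    exact Ideal.neg_mem_iff _ |>.2 hm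
  · have : t - α - b0 = (t - (a0 + b0)) + (a0 - α) := by ring
    rw [this]
    exact Ideal.add_mem _ h1 hm

end Newton

section Scal

variable {A : Type*} [CommRing A]

/-- `X = z • U` with `U` invertible. -/
def ScalUnit (X : Matrix (Fin 2) (Fin 2) A) (z : A) : Prop :=
  ∃ U : (Matrix (Fin 2) (Fin 2) A)ˣ, X = z • (U : Matrix (Fin 2) (Fin 2) A)

theorem ScalUnit.one : ScalUnit (1 : Matrix (Fin 2) (Fin 2) A) 1 := ⟨1, by simp⟩

theorem ScalUnit.mul {X X' : Matrix (Fin 2) (Fin 2) A} {z z' : A} (h : ScalUnit X z)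
    (h' : ScalUnit X' z') : ScalUnit (X * X') (z * z') := by
  obtain ⟨U, rfl⟩ := h
  obtain ⟨U', rfl⟩ := h'
  exact ⟨U * U', by rw [Units.val_mul, smul_mul_smul_comm]⟩

theorem ScalUnit.pow {X : Matrix (Fin 2) (Fin 2) A} {z : A} (h : ScalUnit X z) (m : ℕ) :
    ScalUnit (X ^ m) (z ^ m) := by
  induction m with
  | zero => simpa using ScalUnit.one
  | succ m ih => rw [pow_succ, pow_succ]; exact ih.mul h

theorem ScalUnit.list_prod : ∀ (l : List (Matrix (Fin 2) (Fin 2) A × A)),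
    (∀ x ∈ l, ScalUnit x.1 x.2) → ScalUnit (l.map Prod.fst).prod (l.map Prod.snd).prod
  | [], _ => by simpa using ScalUnit.one
  | x :: l, h => by
    rw [List.map_cons, List.map_cons, List.prod_cons, List.prod_cons]
    exact (h x (by simp)).mul (ScalUnit.list_prod l fun y hy => h y (by simp [hy]))

variable {L : Type*} [AddCommGroup L] [Module A L]

theorem matAct_unit_injective (U : (Matrix (Fin 2) (Fin 2) A)ˣ) :
    Function.Injective (matAct (L := L) (U : Matrix (Fin 2) (Fin 2) A)) := by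
  intro v w h
  have := congrArg (matAct (L := L) ((U⁻¹ : (Matrix (Fin 2) (Fin 2) A)ˣ) : Matrix (Fin 2) (Fin 2) A)) h
  rwa [← matAct_mul, ← matAct_mul, Units.inv_mul, matAct_one, matAct_one] at this

theorem matAct_unit_surjective (U : (Matrix (Fin 2) (Fin 2) A)ˣ) :
    Function.Surjective (matAct (L := L) (U : Matrix (Fin 2) (Fin 2) A)) := by
  intro v
  refine ⟨matAct ((U⁻¹ : (Matrix (Fin 2) (Fin 2) A)ˣ) : Matrix (Fin 2) (Fin 2) A) v, ?_⟩
  rw [← matAct_mul, Units.mul_inv, matAct_one]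

/-- `X v = 0 ↔ z v = 0`. -/
theorem ScalUnit.apply_eq_zero_iff {X : Matrix (Fin 2) (Fin 2) A} {z : A} (h : ScalUnit X z)
    (v : Fin 2 → L) : matAct X v = 0 ↔ z • v = 0 := by
  obtain ⟨U, rfl⟩ := h
  rw [matAct_smul, ← map_smul]
  constructor
  · intro h0
    apply matAct_unit_injective U
    rw [h0, map_zero]
  · intro h0
    rw [h0, map_zero]

/-- `X L² ≠ 0 ↔ z L ≠ 0`. -/
theorem ScalUnit.exists_ne_zero_iff {X : Matrix (Fin 2) (Fin 2) A} {z : A} (h : ScalUnit X z) :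
    (∃ v : Fin 2 → L, matAct X v ≠ 0) ↔ ∃ l : L, z • l ≠ 0 := by
  constructor
  · rintro ⟨v, hv⟩
    rw [Ne, h.apply_eq_zero_iff] at hv
    by_contra hcon
    push Not at hcon
    apply hv
    funext i
    exact hcon (v i)
  · rintro ⟨l, hl⟩
    refine ⟨fun _ => l, ?_⟩
    rw [Ne, h.apply_eq_zero_iff]
    intro h0
    exact hl (congrFun h0 0)

/-- the range of `X` on `L²` is `(z L)²`. -/
theorem ScalUnit.range {X : Matrix (Fin 2) (Fin 2) A} {z : A} (h : ScalUnit X z) (w : Fin 2 → L) :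
    (∃ v : Fin 2 → L, matAct X v = w) ↔ ∃ v : Fin 2 → L, z • v = w := by
  obtain ⟨U, rfl⟩ := h
  constructor
  · rintro ⟨v, rfl⟩
    exact ⟨matAct (U : Matrix (Fin 2) (Fin 2) A) v, by rw [matAct_smul]⟩
  · rintro ⟨v, rfl⟩
    obtain ⟨v', rfl⟩ := matAct_unit_surjective (L := L) U v
    exact ⟨v', by rw [matAct_smul]⟩

/-- `Sg` is conjugate to `diag(1 + y, (1 + y)⁻¹)`. -/
def IsTwY (Sg : Matrix (Fin 2) (Fin 2) A) (y : A) : Prop :=
  ∃ (P : (Matrix (Fin 2) (Fin 2) A)ˣ) (δ : Aˣ), (δ : A) = 1 + y ∧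
    Sg * (P : Matrix (Fin 2) (Fin 2) A) =
      (P : Matrix (Fin 2) (Fin 2) A) * Matrix.diagonal ![(δ : A), ((δ⁻¹ : Aˣ) : A)]

theorem IsTwY.scalUnit {Sg : Matrix (Fin 2) (Fin 2) A} {y : A} (h : IsTwY Sg y) :
    ScalUnit (Sg - 1) y := by
  obtain ⟨P, δ, hδ, hP⟩ := h
  let E : (Matrix (Fin 2) (Fin 2) A)ˣ :=
    ⟨Matrix.diagonal ![1, -((δ⁻¹ : Aˣ) : A)], Matrix.diagonal ![1, -(δ : A)],
      by
        rw [Matrix.diagonal_mul_diagonal, ← Matrix.diagonal_one]
        congr 1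
        funext i
        fin_cases i <;> simp,
      by
        rw [Matrix.diagonal_mul_diagonal, ← Matrix.diagonal_one]
        congr 1
        funext i
        fin_cases i <;> simp⟩
  refine ⟨P * E * P⁻¹, ?_⟩
  have h1 : Sg = (P : Matrix (Fin 2) (Fin 2) A) * Matrix.diagonal ![(δ : A), ((δ⁻¹ : Aˣ) : A)] *
      ((P⁻¹ : (Matrix (Fin 2) (Fin 2) A)ˣ) : Matrix (Fin 2) (Fin 2) A) := by
    rw [← hP, mul_assoc, Units.mul_inv, mul_one]
  have h2 : (1 : Matrix (Fin 2) (Fin 2) A) = (P : Matrix (Fin 2) (Fin 2) A) * 1 *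
      ((P⁻¹ : (Matrix (Fin 2) (Fin 2) A)ˣ) : Matrix (Fin 2) (Fin 2) A) := by
    rw [mul_one, Units.mul_inv]
  have h3 : Matrix.diagonal ![(δ : A), ((δ⁻¹ : Aˣ) : A)] - 1 =
      y • Matrix.diagonal ![1, -((δ⁻¹ : Aˣ) : A)] := by
    have hy : y = (δ : A) - 1 := by rw [hδ]; ring
    have hinv : (δ : A) * ((δ⁻¹ : Aˣ) : A) = 1 := Units.mul_inv δ
    ext i j
    fin_cases i <;> fin_cases j <;> simp [hy]
    linear_combination hinv
  conv_lhs => rw [h1]
  conv_lhs => rw [h2]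
  rw [← sub_mul, ← mul_sub, h3, Units.val_mul, Units.val_mul]
  simp only [Matrix.mul_smul, Matrix.smul_mul]
  rfl

variable (L) in
/-- `Sg v = v ↔ y v = 0`. -/
theorem IsTwY.fix_iff {Sg : Matrix (Fin 2) (Fin 2) A} {y : A} (h : IsTwY Sg y) (v : Fin 2 → L) :
    matAct Sg v = v ↔ y • v = 0 := by
  rw [← h.scalUnit.apply_eq_zero_iff, matAct_sub, matAct_one, sub_eq_zero]

theorem fix_pow {Sg : Matrix (Fin 2) (Fin 2) A} {v : Fin 2 → L} (h : matAct Sg v = v) (j : ℕ) :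
    matAct (Sg ^ j) v = v := by
  induction j with
  | zero => rw [pow_zero, matAct_one]
  | succ j ih => rw [pow_succ, matAct_mul, h, ih]

end Scal

section CharP

/-- `∑_{i < p ^ e} x ^ i = (x - 1) ^ (p ^ e - 1)` in an `𝔽_p`-algebra. -/
theorem geom_sum_eq_sub_one_pow (p : ℕ) [Fact p.Prime] {R : Type*} [Ring R] [Algebra (ZMod p) R]
    (x : R) (e : ℕ) : ∑ i ∈ Finset.range (p ^ e), x ^ i = (x - 1) ^ (p ^ e - 1) := by
  have key : ∑ i ∈ Finset.range (p ^ e), (X : (ZMod p)[X]) ^ i = (X - 1) ^ (p ^ e - 1) := by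
    have hne : (X - 1 : (ZMod p)[X]) ≠ 0 := by
      have := Polynomial.X_sub_C_ne_zero (1 : ZMod p)
      simpa using this
    apply mul_left_cancel₀ hne
    rw [mul_geom_sum, ← pow_succ', Nat.sub_add_cancel (Nat.one_le_pow _ _ (Fact.out : p.Prime).pos),
      sub_pow_char_pow, one_pow]
  have := congrArg (aeval x) key
  simpa using this

variable {A : Type*} [CommRing A]

/-- `δ = 1 + y`, `y` nilpotent, `δ ^ (p ^ e * u) = 1`, `p ∤ u`  ⟹  `y ^ (p ^ e) = 0`. -/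
theorem pow_eq_zero_of_one_add (p : ℕ) [Fact p.Prime] [CharP A p] {y : A} (hy : IsNilpotent y)
    (e u : ℕ) (hu : ¬ p ∣ u) (h : (1 + y) ^ (p ^ e * u) = 1) : y ^ (p ^ e) = 0 := by
  obtain ⟨N, hN⟩ := hy
  set ε : A := (1 + y) ^ (p ^ e) with hε
  have h1 : ε = 1 + y ^ (p ^ e) := by rw [hε, add_pow_char_pow, one_pow]
  have h2 : ε ^ u = 1 := by rw [hε, ← pow_mul, h]
  have h3 : ε ^ (p ^ N) = 1 := by
    rw [h1, add_pow_char_pow, one_pow, ← pow_mul, mul_comm, pow_mul]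
    have hle : N ≤ p ^ N := (Nat.lt_pow_self (Fact.out : p.Prime).one_lt).le
    rw [pow_eq_zero_of_le hle hN, zero_pow (pow_pos (Fact.out : p.Prime).pos e).ne', add_zero]
  have h4 : orderOf ε ∣ u := orderOf_dvd_of_pow_eq_one h2
  have h5 : orderOf ε ∣ p ^ N := orderOf_dvd_of_pow_eq_one h3
  have hcop : Nat.Coprime u (p ^ N) :=
    Nat.Coprime.pow_right N ((Nat.Prime.coprime_iff_not_dvd (Fact.out : p.Prime)).2 hu).symm
  have h6 : orderOf ε = 1 := Nat.eq_one_of_dvd_coprimes hcop h4 h5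
  have h7 : ε = 1 := orderOf_eq_one_iff.1 h6
  rw [h1] at h7
  simpa using h7

end CharP

section Main

variable {A : Type*} [CommRing A] [IsLocalRing A]

/-- **Export**: the element `y_s`. -/
theorem tw_y (Ph Sg : Matrix (Fin 2) (Fin 2) A) (α β : A) (hα : IsUnit α) (hβ : IsUnit β)
    (hαβ : IsUnit (α - β)) (htr : Ph.trace = α + β) (hdet : Ph.det = α * β)
    (hSg : (residue A).mapMatrix Sg = 1) (hdet1 : Sg.det = 1) (s : ℕ) (hs0 : 0 < s)
    (hs : (s : A) - 1 ∈ maximalIdeal A) (h : Ph * Sg = Sg ^ s * Ph) :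
    ∃ y ∈ maximalIdeal A, IsTwY Sg y ∧ (1 + y) ^ (s - 1) = 1 := by
  obtain ⟨P, δ, δ', -, hS, hδ, -, hδs, -, hd⟩ :=
    Import.Hensel.tw_local Ph Sg α β hα hβ hαβ htr hdet hSg s hs h
  rw [hdet1] at hd
  let δu : Aˣ := ⟨δ, δ', hd.symm, by rw [mul_comm]; exact hd.symm⟩
  refine ⟨δ - 1, hδ, ⟨P, δu, by simp [δu], hS⟩, ?_⟩
  rw [add_sub_cancel]
  exact Import.Hensel.pow_pred_eq_one hδ hs0 hδs

/-- `tw_y` with the roots produced by Hensel's lemma and `y ^ P = 0`. -/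
theorem tw_y' (p : ℕ) [Fact p.Prime] [CharP A p] (hnil : ∀ x ∈ maximalIdeal A, IsNilpotent x)
    (Ph Sg : Matrix (Fin 2) (Fin 2) A) (a0 b0 : A) (ha : IsUnit a0) (hb : IsUnit b0)
    (hab : IsUnit (a0 - b0)) (htr : Ph.trace - (a0 + b0) ∈ maximalIdeal A)
    (hdet : Ph.det - a0 * b0 ∈ maximalIdeal A)
    (hSg : (residue A).mapMatrix Sg = 1) (hdet1 : Sg.det = 1) (s e u : ℕ) (hs : s = p ^ e * u + 1)
    (he : 0 < e) (hu : ¬ p ∣ u) (h : Ph * Sg = Sg ^ s * Ph) :
    ∃ y ∈ maximalIdeal A, IsTwY Sg y ∧ y ^ (p ^ e) = 0 := by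
  obtain ⟨α, β, h1, h2, h3, h4⟩ := exists_roots hnil _ _ a0 b0 htr hdet hab
  have hα : IsUnit α := isUnit_of_sub_mem ha h3
  have hβ : IsUnit β := isUnit_of_sub_mem hb h4
  have hαβ : IsUnit (α - β) := by
    apply isUnit_of_sub_mem hab
    have : α - β - (a0 - b0) = (α - a0) - (β - b0) := by ring
    rw [this]
    exact Ideal.sub_mem _ h3 h4
  have hsA : (s : A) - 1 ∈ maximalIdeal A := by
    have : (s : A) - 1 = 0 := by
      rw [hs]
      push_cast
      rw [CharP.cast_eq_zero A p, zero_pow he.ne']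
      ring
    rw [this]
    exact Ideal.zero_mem _
  obtain ⟨y, hy, hY, hpow⟩ := tw_y Ph Sg α β hα hβ hαβ h1 h2 hSg hdet1 s (by omega) hsA h
  refine ⟨y, hy, hY, pow_eq_zero_of_one_add p (hnil y hy) e u hu ?_⟩
  have : s - 1 = p ^ e * u := by omega
  rw [← this]
  exact hpow

/-- (UNIP2) `Ph S Ph⁻¹ = S²`, `det S = 1`, `tr S ≡ 2`, `3` invertible  ⟹  `tr S = 2`. -/
theorem trace_eq_two_of_sq (h3 : IsUnit (3 : A)) (Ph S : Matrix (Fin 2) (Fin 2) A)
    (hPh : IsUnit Ph) (hdet : S.det = 1) (h : Ph * S = S ^ 2 * Ph)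
    (hres : S.trace - 2 ∈ maximalIdeal A) : S.trace = 2 := by
  obtain ⟨U, rfl⟩ := hPh
  have h1 : (S ^ 2).trace = S.trace := by
    have e : S ^ 2 = (U : Matrix (Fin 2) (Fin 2) A) * S *
        ((U⁻¹ : (Matrix (Fin 2) (Fin 2) A)ˣ) : Matrix (Fin 2) (Fin 2) A) := by
      rw [h, mul_assoc, Units.mul_inv, mul_one]
    rw [e, Matrix.trace_mul_comm, ← mul_assoc, Units.inv_mul, one_mul]
  have h2 : (S ^ 2).trace = S.trace ^ 2 - 2 * S.det := by
    rw [pow_two, Matrix.trace_fin_two, Matrix.trace_fin_two, Matrix.det_fin_two]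
    simp only [Matrix.mul_apply, Fin.sum_univ_two]
    ring
  rw [h1, hdet] at h2
  have h4 : (S.trace - 2) * (S.trace + 1) = 0 := by linear_combination (-1 : A) * h2
  have h5 : IsUnit (S.trace + 1) := by
    apply isUnit_of_sub_mem h3
    have : S.trace + 1 - 3 = S.trace - 2 := by ring
    rw [this]
    exact hres
  have h6 := (h5.mul_left_eq_zero).1 h4
  exact sub_eq_zero.1 h6

end Main

end Fermat.Agent.S43.LocA
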